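import Fermat.Agent.Partition.Theta
import Fermat.Agent.Tau.TwentyThree
import Fermat.Agent.Tau.QuasiModular

/-!
# The recurrences and the parity of the partitions

Euler's pentagonal recurrence, `n p(n) = ∑ σ(k) p(n - k)` and Kolberg's theorem: the parity of
`p(n)` is not eventually constant.
-/

set_option autoImplicit false

noncomputable section

open PowerSeries (coeff)
open FA.Tau ModularCurve
open scoped ArithmeticFunction.sigma

namespace FA.Partition

/-- The number of partitions, as a coefficient. -/
theorem coeff_partitionSeries (n : ℕ) :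
    coeff n partitionSeries = (Fintype.card (Nat.Partition n) : ℤ) := by
  rw [partitionSeries, PowerSeries.coeff_mk]

/-- Euler's recurrence on any set of `k` which consists of those with `pentagonal k ≤ n`. -/
theorem sum_pentagonal_eq_zero {n : ℕ} (hn : 0 < n) (S : Finset ℤ)
    (hS : ∀ k, k ∈ S ↔ pentagonal k ≤ n) :
    ∑ k ∈ S, (Int.negOnePow k : ℤ) * (Fintype.card (Nat.Partition (n - pentagonal k)) : ℤ) = 0 := by
  have h := congrArg (coeff n) partitionSeries_mul_etaProd
  rw [mul_comm, etaProd_eq_pentagonalSeries, PowerSeries.coeff_mul, PowerSeries.coeff_one,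
    if_neg hn.ne'] at h
  refine Eq.trans ?_ h
  refine Finset.sum_of_injOn (fun k => (pentagonal k, n - pentagonal k))
    (fun a _ b _ e => pentagonal_injective (congrArg Prod.fst e)) (fun k hk => ?_)
    (fun x hx hx' => ?_) fun k _ => ?_
  · exact Finset.mem_coe.mpr (Finset.HasAntidiagonal.mem_antidiagonal.mpr
      (Nat.add_sub_cancel' ((hS k).mp (Finset.mem_coe.mp hk))))
  · have he := Finset.HasAntidiagonal.mem_antidiagonal.mp hx
    rw [PowerSeries.coeff_pentagonalSeries_eq_zero ℤ (fun ⟨k, hk⟩ => hx' ⟨k, Finset.mem_coe.mpr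
      ((hS k).mpr (hk ▸ by omega)), Prod.ext hk (by simp only; omega)⟩), zero_mul]
  · rw [PowerSeries.coeff_pentagonalSeries_pentagonal, coeff_partitionSeries]
    rfl

/-- All `k` with `pentagonal k ≤ n` are at most `n` in absolute value. -/
theorem mem_Icc_of_pentagonal_le {n : ℕ} {k : ℤ} (h : pentagonal k ≤ n) :
    k ∈ Finset.Icc (-(n : ℤ)) n := by
  have e := two_mul_natCast_pentagonal k
  have h' : (pentagonal k : ℤ) ≤ n := by exact_mod_cast h
  rw [Finset.mem_Icc]
  constructor <;> nlinarith

/-- `n p(n) = ∑ σ(k) p(n - k)`. -/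
theorem natCast_mul_card_partition (n : ℕ) :
    (n : ℤ) * (Fintype.card (Nat.Partition n) : ℤ) = ∑ k ∈ Finset.range (n + 1),
      (σ 1 k : ℤ) * (Fintype.card (Nat.Partition (n - k)) : ℤ) := by
  have e : deltaInt * partitionSeries ^ 24 = PowerSeries.X := by
    rw [deltaInt, dedekindEtaUnit, mul_assoc, ← mul_pow, mul_comm etaProd,
      partitionSeries_mul_etaProd, one_pow, mul_one]
  have hX : thetaDer (PowerSeries.X : PowerSeries ℤ) = PowerSeries.X := by
    rw [thetaDer_apply, thetaInt_eq, PowerSeries.derivative_X, mul_one]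
  have h := congrArg thetaDer e
  rw [hX, Derivation.leibniz, Derivation.leibniz_pow, thetaDer_apply deltaInt, theta_delta] at h
  simp only [smul_eq_mul, nsmul_eq_mul] at h
  have h2 : thetaDer partitionSeries = sOneInt * partitionSeries := by
    have hne : (24 : ℕ) * (deltaInt * partitionSeries ^ 23) ≠ (0 : PowerSeries ℤ) := by
      refine mul_ne_zero (natCast_series_ne_zero (by norm_num)) (left_ne_zero_of_mul
        (b := partitionSeries) ?_)
      rw [mul_assoc, ← pow_succ, e]
      exact PowerSeries.X_ne_zero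
    refine mul_left_cancel₀ hne ?_
    rw [eTwoInt_eq] at h
    push_cast at h ⊢
    linear_combination h - e
  have h3 := congrArg (coeff n) h2
  rw [coeff_thetaDer, coeff_partitionSeries, PowerSeries.coeff_mul,
    Finset.Nat.sum_antidiagonal_eq_sum_range_succ_mk] at h3
  simpa only [sOneInt, PowerSeries.coeff_mk, coeff_partitionSeries] using h3

/-- A parity is not eventually constant. -/
theorem not_eventually_parity (c : ZMod 2) (a : ℕ) (ha : 0 < a) :
    ¬ ∀ n, a ≤ n → ((Fintype.card (Nat.Partition n) : ℕ) : ZMod 2) = c := fun h => by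
  have hmod : ∀ {n : ℕ}, 0 < n → ∀ S : Finset ℤ, (∀ k, k ∈ S ↔ pentagonal k ≤ n) →
      ∑ k ∈ S, ((Fintype.card (Nat.Partition (n - pentagonal k)) : ℕ) : ZMod 2) = 0 :=
    fun {n} hn S hS => by
      have e := congrArg (Int.cast : ℤ → ZMod 2) (sum_pentagonal_eq_zero hn S hS)
      rw [Int.cast_zero, Int.cast_sum] at e
      refine Eq.trans (Finset.sum_congr rfl fun k _ => ?_) e
      rcases Int.units_eq_one_or (Int.negOnePow k) with hk | hk <;> simp [hk, CharTwo.neg_eq]
  have h1 : ((Fintype.card (Nat.Partition 0) : ℕ) : ZMod 2) = 1 := by simp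
  have haz : (1 : ℤ) ≤ a := by exact_mod_cast ha
  rcases (show ∀ x : ZMod 2, x = 0 ∨ x = 1 by decide) c with rfl | rfl
  · -- at `n = a (3 a - 1) / 2` only the term `p(0)` is odd
    have e1 := two_mul_natCast_pentagonal (a : ℤ)
    have hpos : 0 < pentagonal (a : ℤ) := by
      by_contra hc
      rw [Nat.le_zero.mp (not_lt.mp hc), Nat.cast_zero] at e1
      nlinarith
    have hS : ∀ k : ℤ, k ∈ Finset.Icc (1 - (a : ℤ)) a ↔ pentagonal k ≤ pentagonal (a : ℤ) :=
      fun k => by
        have e2 := two_mul_natCast_pentagonal k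
        rw [Finset.mem_Icc, ← Int.ofNat_le]
        constructor
        · rintro ⟨hl, hu⟩
          nlinarith
        · intro hle
          constructor <;> by_contra hc <;> nlinarith
    have e := hmod hpos _ hS
    rw [Finset.sum_eq_single_of_mem (a : ℤ) (Finset.mem_Icc.mpr ⟨by linarith, le_rfl⟩)
      fun k hk hka => ?_, Nat.sub_self, h1] at e
    · exact one_ne_zero e
    · refine h _ ?_
      have hkle := (hS k).mp hk
      obtain ⟨hl, hu⟩ := Finset.mem_Icc.mp hk
      have hu' : k ≤ (a : ℤ) - 1 := by omega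
      have e2 := two_mul_natCast_pentagonal k
      rw [← Int.ofNat_le, Nat.cast_sub hkle]
      nlinarith
  · -- at `n = a (3 a + 1) / 2` there are `2 a + 1` odd terms
    have e1 := two_mul_natCast_pentagonal_neg (a : ℤ)
    have hpos : 0 < pentagonal (-(a : ℤ)) := by
      by_contra hc
      rw [Nat.le_zero.mp (not_lt.mp hc), Nat.cast_zero] at e1
      nlinarith
    have hS : ∀ k : ℤ, k ∈ Finset.Icc (-(a : ℤ)) a ↔ pentagonal k ≤ pentagonal (-(a : ℤ)) :=
      fun k => by
        have e2 := two_mul_natCast_pentagonal k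
        rw [Finset.mem_Icc, ← Int.ofNat_le]
        constructor
        · rintro ⟨hl, hu⟩
          nlinarith
        · intro hle
          constructor <;> by_contra hc <;> nlinarith
    have e := hmod hpos _ hS
    rw [Finset.sum_congr rfl (g := fun _ => (1 : ZMod 2)) fun k hk => ?_, Finset.sum_const,
      Int.card_Icc, nsmul_eq_mul, mul_one,
      show ((a : ℤ) + 1 - -(a : ℤ)).toNat = 2 * a + 1 by omega, Nat.cast_add, Nat.cast_mul,
      show ((2 : ℕ) : ZMod 2) = 0 from rfl, zero_mul, zero_add, Nat.cast_one] at e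
    · exact one_ne_zero e
    · rcases eq_or_ne k (-(a : ℤ)) with rfl | hne
      · rw [Nat.sub_self, h1]
      · refine h _ ?_
        have hkle := (hS k).mp hk
        obtain ⟨hl, hu⟩ := Finset.mem_Icc.mp hk
        have hl' : 1 - (a : ℤ) ≤ k := by omega
        have e2 := two_mul_natCast_pentagonal k
        rw [← Int.ofNat_le, Nat.cast_sub hkle]
        nlinarith

/-- **Kolberg**: both parities occur beyond every bound. -/
theorem exists_parity (c : ZMod 2) (N : ℕ) :
    ∃ n, N < n ∧ ((Fintype.card (Nat.Partition n) : ℕ) : ZMod 2) = c := by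
  by_contra hcon
  push Not at hcon
  refine not_eventually_parity (c + 1) (N + 1) N.succ_pos fun n hn => ?_
  exact (show ∀ x y : ZMod 2, x ≠ y → x = y + 1 by decide) _ _ (hcon n hn)

end FA.Partition

end
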