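import Fermat.Agent.Partition.Theta

/-!
# The coefficients of `j` modulo 5, 7 and 11

With `c(n)` the coefficient of `qⁿ` in `j = E₄³/Δ`: modulo `l` the series `E₄³ Δ^(l-1) - c Δ^l` is
in the image of `q d/dq` for `(l, c) = (5, 4), (7, 2), (11, 7)`, so `l ∣ c(ln)` for `n ≥ 1`.
-/

set_option autoImplicit false

noncomputable section

open PowerSeries (coeff C X expand)
open FA.Tau ModularCurve

namespace FA.Partition

variable {l : ℕ}

theorem NoMul.intCast_mul {A : PowerSeries (ZMod l)} (hA : NoMul l A) (c : ℤ) :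
    NoMul l ((c : PowerSeries (ZMod l)) * A) := fun k => by
  rw [← map_intCast (C : ZMod l →+* _) c, PowerSeries.coeff_C_mul, hA k, mul_zero]

theorem noMul_intCast_mul_of_dvd {c : ℤ} (hc : (l : ℤ) ∣ c) (A : PowerSeries (ZMod l)) :
    NoMul l ((c : PowerSeries (ZMod l)) * A) := fun k => by
  rw [← map_intCast (C : ZMod l →+* _) c, (ZMod.intCast_zmod_eq_zero_iff_dvd c l).mpr hc, map_zero,
    zero_mul, map_zero]

theorem eisenstein4_eq : eisenstein4 = eFourInt := by
  refine PowerSeries.ext fun n => ?_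
  rw [eisenstein4, eFourInt, PowerSeries.coeff_mk, PowerSeries.coeff_mk]
  simp [ArithmeticFunction.sigma_apply]

/-- From the multiples of `l` in `E₄³ Δ^(l-1) - c Δ^l` to the coefficients of `j`. -/
theorem dvd_coeff_jNum [Fact l.Prime] {c : ℕ}
    (h : NoMul l (redInt l eFourInt ^ 3 * redInt l deltaInt ^ (l - 1) -
      (c : PowerSeries (ZMod l)) * redInt l deltaInt ^ l)) {n : ℕ} (hn : 0 < n) :
    (l : ℤ) ∣ coeff (l * n + 1) jNum := by
  have hp : l.Prime := Fact.out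
  obtain ⟨d, rfl⟩ : ∃ d, l = d + 1 := ⟨l - 1, by have := hp.pos; omega⟩
  rw [Nat.add_sub_cancel] at h
  set x := redInt (d + 1) eFourInt
  set i := redInt (d + 1) dedekindEtaUnitInv
  set u := redInt (d + 1) dedekindEtaUnit
  have hui : (u * i) ^ (d + 1) = 1 := by
    rw [← map_mul, dedekindEtaUnit_mul_inv, map_one, one_pow]
  have e : X ^ d * redInt (d + 1) jNum = (x ^ 3 * redInt (d + 1) deltaInt ^ d -
        (c : PowerSeries (ZMod (d + 1))) * redInt (d + 1) deltaInt ^ (d + 1)) *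
        expand (d + 1) d.succ_ne_zero i + (c : PowerSeries (ZMod (d + 1))) * X ^ (d + 1) := by
    rw [pow_card_eq_expand, jNum, eisenstein4_eq, deltaInt, map_mul, map_mul, map_pow,
      PowerSeries.map_X]
    have hui' : (u * i) ^ d = 1 := by
      rw [← map_mul, dedekindEtaUnit_mul_inv, map_one, one_pow]
    rw [mul_pow] at hui hui'
    linear_combination (c : PowerSeries (ZMod (d + 1))) * X ^ (d + 1) * hui -
      x ^ 3 * X ^ d * i * hui'
  have h' := h.mul_expand d.succ_ne_zero i (n + 1)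
  have e' := congrArg (coeff ((d + 1) * (n + 1))) e
  rw [map_add, h', show (d + 1) * (n + 1) = (d + 1) * n + 1 + d by ring,
    PowerSeries.coeff_X_pow_mul, coeff_redInt, ← map_natCast (C : ZMod (d + 1) →+* _) c,
    PowerSeries.coeff_C_mul, PowerSeries.coeff_X_pow, if_neg (by
      have : 0 < (d + 1) * n := Nat.mul_pos d.succ_pos hn
      omega), mul_zero, add_zero] at e'
  exact (ZMod.intCast_zmod_eq_zero_iff_dvd _ _).mp e'

theorem noMul_j_five : NoMul 5 (redInt 5 eFourInt ^ 3 * redInt 5 deltaInt ^ (5 - 1) -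
    ((4 : ℕ) : PowerSeries (ZMod 5)) * redInt 5 deltaInt ^ 5) := by
  have : Fact (Nat.Prime 5) := ⟨by norm_num⟩
  set y := redInt 5 eSixInt
  set D := redInt 5 deltaInt
  have h1 := congrArg (redInt 5) delta_eq
  have h2 := congrArg (redInt 5) theta_eSix
  simp only [map_mul, map_sub, map_pow, map_ofNat, redInt_eFour_five, redInt_thetaInt,
    ← redInt_eSix_five, one_pow] at h1 h2
  have hD : D = 2 * (1 - y ^ 2) := by
    have e : ((3456 : ℕ) : PowerSeries (ZMod 5)) = 1 := by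
      rw [← map_natCast (C : ZMod 5 →+* _), show ((3456 : ℕ) : ZMod 5) = 1 from rfl, map_one]
    push_cast at e
    linear_combination 2 * h1 - D * e
  have hy : ∀ a : ℕ, ¬ 5 ∣ a + 1 → NoMul 5 (y ^ a * D) := fun a ha => by
    refine NoMul.of_natCast_mul ha ?_
    rw [show ((a + 1 : ℕ) : PowerSeries (ZMod 5)) * (y ^ a * D) =
        ((-4 : ℤ) : PowerSeries (ZMod 5)) * thetaMod (y ^ (a + 1)) by
      rw [thetaMod_pow]; push_cast
      linear_combination ((a : PowerSeries (ZMod 5)) + 1) * y ^ a * (hD + 2 * h2)]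
    exact (noMul_thetaMod _).intCast_mul _
  rw [redInt_eFour_five, one_pow, one_mul, show 5 - 1 = 4 from rfl,
    show D ^ 4 - ((4 : ℕ) : PowerSeries (ZMod 5)) * D ^ 5 =
      ((-56 : ℤ) : PowerSeries (ZMod 5)) * (y ^ 0 * D) +
      ((232 : ℤ) : PowerSeries (ZMod 5)) * (y ^ 2 * D) +
      ((-360 : ℤ) : PowerSeries (ZMod 5)) * (y ^ 4 * D) +
      ((248 : ℤ) : PowerSeries (ZMod 5)) * (y ^ 6 * D) +
      ((-64 : ℤ) : PowerSeries (ZMod 5)) * (y ^ 8 * D) by
    push_cast
    rw [show D ^ 4 - 4 * D ^ 5 = D * (D ^ 3 - 4 * D ^ 4) by ring]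
    conv_lhs => arg 2; rw [hD]
    ring]
  exact ((((hy 0 (by norm_num)).intCast_mul _).add ((hy 2 (by norm_num)).intCast_mul _)).add
    (noMul_intCast_mul_of_dvd (by norm_num) _)).add ((hy 6 (by norm_num)).intCast_mul _) |>.add
      ((hy 8 (by norm_num)).intCast_mul _)

theorem noMul_j_seven : NoMul 7 (redInt 7 eFourInt ^ 3 * redInt 7 deltaInt ^ (7 - 1) -
    ((2 : ℕ) : PowerSeries (ZMod 7)) * redInt 7 deltaInt ^ 7) := by
  have : Fact (Nat.Prime 7) := ⟨by norm_num⟩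
  set x := redInt 7 eFourInt
  set D := redInt 7 deltaInt
  have h1 := congrArg (redInt 7) delta_eq
  have h2 := congrArg (redInt 7) theta_eSix
  have h3 := congrArg (redInt 7) theta_eFour
  have h0 : redInt 7 (thetaInt eSixInt) = 0 := by
    rw [redInt_thetaInt, redInt_eSix_seven, thetaMod, PowerSeries.derivative_one, mul_zero]
  simp only [map_mul, map_sub, map_pow, map_ofNat, redInt_eSix_seven, h0, mul_zero, mul_one,
    one_pow, redInt_thetaInt] at h1 h2 h3
  have hD : D = 1 - x ^ 3 := by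
    have e : ((1729 : ℕ) : PowerSeries (ZMod 7)) = 0 := by
      rw [← map_natCast (C : ZMod 7 →+* _), show ((1729 : ℕ) : ZMod 7) = 0 from rfl, map_zero]
    push_cast at e
    linear_combination D * e - h1
  have hx : ∀ a : ℕ, ¬ 7 ∣ a + 1 → NoMul 7 (x ^ a * D) := fun a ha => by
    refine NoMul.of_natCast_mul ha ?_
    rw [show ((a + 1 : ℕ) : PowerSeries (ZMod 7)) * (x ^ a * D) =
        ((-3 : ℤ) : PowerSeries (ZMod 7)) * thetaMod (x ^ (a + 1)) by
      rw [thetaMod_pow]; push_cast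
      linear_combination ((a : PowerSeries (ZMod 7)) + 1) * x ^ a * (hD + h3 - x * h2)]
    exact (noMul_thetaMod _).intCast_mul _
  rw [show x ^ 3 * D ^ (7 - 1) - ((2 : ℕ) : PowerSeries (ZMod 7)) * D ^ 7 =
      ((-2 : ℤ) : PowerSeries (ZMod 7)) * (x ^ 0 * D) +
      ((13 : ℤ) : PowerSeries (ZMod 7)) * (x ^ 3 * D) +
      ((-35 : ℤ) : PowerSeries (ZMod 7)) * (x ^ 6 * D) +
      ((50 : ℤ) : PowerSeries (ZMod 7)) * (x ^ 9 * D) +
      ((-40 : ℤ) : PowerSeries (ZMod 7)) * (x ^ 12 * D) +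
      ((17 : ℤ) : PowerSeries (ZMod 7)) * (x ^ 15 * D) +
      ((-3 : ℤ) : PowerSeries (ZMod 7)) * (x ^ 18 * D) by
    push_cast
    rw [show x ^ 3 * D ^ (7 - 1) - 2 * D ^ 7 = D * (x ^ 3 * D ^ 5 - 2 * D ^ 6) by ring]
    conv_lhs => arg 2; rw [hD]
    ring]
  exact (((((((hx 0 (by norm_num)).intCast_mul _).add ((hx 3 (by norm_num)).intCast_mul _)).add
    (noMul_intCast_mul_of_dvd (by norm_num) _)).add ((hx 9 (by norm_num)).intCast_mul _)).add
    ((hx 12 (by norm_num)).intCast_mul _)).add ((hx 15 (by norm_num)).intCast_mul _)).add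
    ((hx 18 (by norm_num)).intCast_mul _)

theorem noMul_j_eleven : NoMul 11 (redInt 11 eFourInt ^ 3 * redInt 11 deltaInt ^ (11 - 1) -
    ((7 : ℕ) : PowerSeries (ZMod 11)) * redInt 11 deltaInt ^ 11) := by
  have : Fact (Nat.Prime 11) := ⟨by norm_num⟩
  set x := redInt 11 eFourInt
  set y := redInt 11 eSixInt
  set D := redInt 11 deltaInt
  set E := redInt 11 eTwoInt
  have hxy : x * y = 1 := by
    rw [← map_mul, eFour_mul_eSix]
    refine PowerSeries.ext fun n => ?_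
    rw [coeff_redInt, eTenInt, PowerSeries.coeff_mk, PowerSeries.coeff_one]
    split_ifs <;> push_cast
    · rfl
    · rw [show (264 : ZMod 11) = 0 from rfl, neg_zero, zero_mul]
  have h1 := congrArg (redInt 11) delta_eq
  have h2 := congrArg (redInt 11) theta_eSix
  have h3 := congrArg (redInt 11) theta_eFour
  simp only [map_mul, map_sub, map_pow, map_ofNat, redInt_thetaInt] at h1 h2 h3
  rw [show (1728 : PowerSeries (ZMod 11)) = C (1728 : ZMod 11) from (map_ofNat _ _).symm,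
    show (1728 : ZMod 11) = 1 from rfl, map_one, one_mul] at h1
  have h0 : thetaMod x * y + x * thetaMod y = 0 := by
    rw [← thetaMod_mul, hxy, thetaMod, PowerSeries.derivative_one, mul_zero]
  have hE : 5 * E = 2 * y ^ 2 + 3 * x ^ 3 := by
    linear_combination 6 * h0 - 2 * y * h3 - 3 * x * h2 - 5 * E * hxy
  have hX : 15 * thetaMod x = 3 * (x * D) := by
    linear_combination 5 * h3 + x * hE + 5 * y * hxy - 3 * x * h1
  have hY : 10 * thetaMod y + 2 * (y * D) = 0 := by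
    linear_combination 5 * h2 + y * hE + 2 * y * h1 + 5 * x ^ 2 * hxy
  have hx : ∀ a : ℕ, ¬ 11 ∣ 3 * (a + 1) → NoMul 11 (x ^ (a + 1) * D) := fun a ha => by
    refine NoMul.of_natCast_mul ha ?_
    rw [show ((3 * (a + 1) : ℕ) : PowerSeries (ZMod 11)) * (x ^ (a + 1) * D) =
        ((15 : ℕ) : PowerSeries (ZMod 11)) * thetaMod (x ^ (a + 1)) by
      rw [thetaMod_pow]; push_cast
      linear_combination -((a : PowerSeries (ZMod 11)) + 1) * x ^ a * hX]
    exact (noMul_thetaMod _).natCast_mul 15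
  have hy : ∀ b : ℕ, ¬ 11 ∣ 2 * (b + 1) → NoMul 11 (y ^ (b + 1) * D) := fun b hb => by
    refine NoMul.of_natCast_mul hb ?_
    rw [show ((2 * (b + 1) : ℕ) : PowerSeries (ZMod 11)) * (y ^ (b + 1) * D) =
        ((-10 : ℤ) : PowerSeries (ZMod 11)) * thetaMod (y ^ (b + 1)) by
      rw [thetaMod_pow]; push_cast
      linear_combination ((b : PowerSeries (ZMod 11)) + 1) * y ^ b * hY]
    exact (noMul_thetaMod _).intCast_mul _
  rw [show x ^ 3 * D ^ (11 - 1) - ((7 : ℕ) : PowerSeries (ZMod 11)) * D ^ 11 =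
      ((-6 : ℤ) : PowerSeries (ZMod 11)) * (x ^ 30 * D) +
      ((61 : ℤ) : PowerSeries (ZMod 11)) * (x ^ 25 * D) +
      ((-279 : ℤ) : PowerSeries (ZMod 11)) * (x ^ 20 * D) +
      ((756 : ℤ) : PowerSeries (ZMod 11)) * (x ^ 15 * D) +
      ((-1344 : ℤ) : PowerSeries (ZMod 11)) * (x ^ 10 * D) +
      ((1638 : ℤ) : PowerSeries (ZMod 11)) * (x ^ 5 * D) +
      ((-1386 : ℤ) : PowerSeries (ZMod 11)) * D +
      ((804 : ℤ) : PowerSeries (ZMod 11)) * (y ^ 5 * D) +
      ((-306 : ℤ) : PowerSeries (ZMod 11)) * (y ^ 10 * D) +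
      ((69 : ℤ) : PowerSeries (ZMod 11)) * (y ^ 15 * D) +
      ((-7 : ℤ) : PowerSeries (ZMod 11)) * (y ^ 20 * D) by
    have hDx : D = x ^ 3 * (1 - y ^ 5) := by
      have e3 : x ^ 3 * y ^ 3 = 1 := by rw [← mul_pow, hxy, one_pow]
      linear_combination h1 + y ^ 2 * e3
    have hu : ∀ i : ℕ, (x ^ 5) ^ i * (y ^ 5) ^ i = 1 := fun i => by
      rw [← mul_pow, ← mul_pow, hxy, one_pow, one_pow]
    push_cast
    rw [show x ^ 3 * D ^ (11 - 1) - 7 * D ^ 11 = D * (x ^ 3 * D ^ 9 - 7 * D ^ 10) by ring]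
    conv_lhs => arg 2; rw [hDx]
    linear_combination D * (61 * (x ^ 5) ^ 5 * hu 1 - 279 * (x ^ 5) ^ 4 * hu 2 +
      756 * (x ^ 5) ^ 3 * hu 3 - 1344 * (x ^ 5) ^ 2 * hu 4 + 1638 * (x ^ 5) * hu 5 -
      1386 * hu 6 + 804 * y ^ 5 * hu 6 - 306 * (y ^ 5) ^ 2 * hu 6 + 69 * (y ^ 5) ^ 3 * hu 6 -
      7 * (y ^ 5) ^ 4 * hu 6)]
  exact (((((((((((hx 29 (by norm_num)).intCast_mul _).add
    ((hx 24 (by norm_num)).intCast_mul _)).add ((hx 19 (by norm_num)).intCast_mul _)).add
    ((hx 14 (by norm_num)).intCast_mul _)).add ((hx 9 (by norm_num)).intCast_mul _)).add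
    ((hx 4 (by norm_num)).intCast_mul _)).add (noMul_intCast_mul_of_dvd (by norm_num) _)).add
    ((hy 4 (by norm_num)).intCast_mul _)).add ((hy 9 (by norm_num)).intCast_mul _)).add
    ((hy 14 (by norm_num)).intCast_mul _)).add ((hy 19 (by norm_num)).intCast_mul _)

end FA.Partition

end
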