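import Fermat.Agent.Tau.ModFiveSeven
import Mathlib.Combinatorics.Enumerative.Partition.Glaisher

/-!
# Powers of `Δ` in the image of `q d/dq` and the generating series of the partitions

For `l = 5, 7, 11` the series `Δ ^ ((l² - 1) / 24)` has no coefficient prime to `l` at the
multiples of `l`. Modulo `11` one has `E₄ E₆ = E₁₀ ≡ 1`, whence `θ E₄ = -2 E₄ Δ`.
-/

set_option autoImplicit false

noncomputable section

open PowerSeries (coeff C X expand)
open scoped ArithmeticFunction.sigma PowerSeries.WithPiTopology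
open ModularForm EisensteinSeries UpperHalfPlane FA.Eis FA.Tau ModularCurve
open scoped MatrixGroups

namespace FA.Partition

/-- The generating series of the number of partitions. -/
def partitionSeries : PowerSeries ℤ :=
  PowerSeries.mk fun n => (Fintype.card (Nat.Partition n) : ℤ)

/-- **Euler's product for the partitions.** -/
theorem partitionSeries_mul_etaProd : partitionSeries * etaProd = 1 := by
  have h1 : HasProd (fun i => ∑' j : ℕ, (X : PowerSeries ℤ) ^ ((i + 1) * j)) partitionSeries := by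
    simpa [Nat.Partition.restricted, Finset.filter_true_of_mem, partitionSeries] using
      Nat.Partition.hasProd_powerSeriesMk_card_restricted ℤ (fun _ => True)
  have h2 : HasProd (fun i => 1 - (X : PowerSeries ℤ) ^ (i + 1)) etaProd :=
    (PowerSeries.WithPiTopology.multipliable_one_sub_X_pow ℤ).hasProd
  have h := h1.mul h2
  have e : ∀ i : ℕ, (∑' j : ℕ, (X : PowerSeries ℤ) ^ ((i + 1) * j)) * (1 - X ^ (i + 1)) = 1 :=
    fun i => by
      simp only [pow_mul]
      exact PowerSeries.WithPiTopology.tsum_pow_mul_one_sub_of_constantCoeff_eq_zero (by simp)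
  simp only [e] at h
  exact h.unique hasProd_one

variable {l : ℕ}

/-- `q d/dq` modulo `l`. -/
def thetaMod (A : PowerSeries (ZMod l)) : PowerSeries (ZMod l) :=
  X * PowerSeries.derivative (ZMod l) A

theorem coeff_thetaMod (A : PowerSeries (ZMod l)) (n : ℕ) :
    coeff n (thetaMod A) = (n : ZMod l) * coeff n A := by
  cases n with
  | zero => simp [thetaMod]
  | succ n =>
    rw [thetaMod, PowerSeries.coeff_succ_X_mul, PowerSeries.coeff_derivative]
    push_cast
    ring

theorem redInt_thetaInt (A : PowerSeries ℤ) : redInt l (thetaInt A) = thetaMod (redInt l A) :=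
  PowerSeries.ext fun n => by
    rw [coeff_thetaMod, coeff_redInt, coeff_redInt, thetaInt, PowerSeries.coeff_mk]
    push_cast
    ring

theorem thetaMod_pow (A : PowerSeries (ZMod l)) (k : ℕ) :
    thetaMod (A ^ (k + 1)) = (k + 1 : ℕ) * (A ^ k * thetaMod A) := by
  simp only [thetaMod, PowerSeries.derivative_pow, Nat.add_sub_cancel]
  ring

theorem thetaMod_mul (A B : PowerSeries (ZMod l)) :
    thetaMod (A * B) = thetaMod A * B + A * thetaMod B := by
  simp only [thetaMod, Derivation.leibniz, smul_eq_mul]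
  ring

/-- No coefficient at a multiple of `l`. -/
def NoMul (l : ℕ) (A : PowerSeries (ZMod l)) : Prop := ∀ k : ℕ, coeff (l * k) A = 0

theorem noMul_thetaMod (A : PowerSeries (ZMod l)) : NoMul l (thetaMod A) := fun k => by
  rw [coeff_thetaMod, Nat.cast_mul, ZMod.natCast_self, zero_mul, zero_mul]

theorem NoMul.add {A B : PowerSeries (ZMod l)} (hA : NoMul l A) (hB : NoMul l B) :
    NoMul l (A + B) := fun k => by rw [map_add, hA k, hB k, add_zero]

theorem NoMul.sub {A B : PowerSeries (ZMod l)} (hA : NoMul l A) (hB : NoMul l B) :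
    NoMul l (A - B) := fun k => by rw [map_sub, hA k, hB k, sub_zero]

theorem NoMul.natCast_mul {A : PowerSeries (ZMod l)} (hA : NoMul l A) (c : ℕ) :
    NoMul l ((c : PowerSeries (ZMod l)) * A) := fun k => by
  rw [← map_natCast (C : ZMod l →+* _) c, PowerSeries.coeff_C_mul, hA k, mul_zero]

theorem NoMul.of_natCast_mul [Fact l.Prime] {c : ℕ} (hc : ¬ l ∣ c) {A : PowerSeries (ZMod l)}
    (hA : NoMul l ((c : PowerSeries (ZMod l)) * A)) : NoMul l A := fun k => by
  have h := hA k
  rw [← map_natCast (C : ZMod l →+* _) c, PowerSeries.coeff_C_mul] at h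
  exact (mul_eq_zero.mp h).resolve_left fun h0 => hc ((ZMod.natCast_eq_zero_iff _ _).mp h0)

theorem NoMul.mul_expand (hl : l ≠ 0) {A : PowerSeries (ZMod l)} (hA : NoMul l A)
    (B : PowerSeries (ZMod l)) : NoMul l (A * expand l hl B) := fun k => by
  rw [PowerSeries.coeff_mul]
  refine Finset.sum_eq_zero fun x hx => ?_
  by_cases hd : l ∣ x.2
  · obtain ⟨j, hj⟩ : l ∣ x.1 := (Nat.dvd_add_left hd).mp
      ((Finset.HasAntidiagonal.mem_antidiagonal.mp hx).symm ▸ dvd_mul_right l k)
    rw [hj, hA j, zero_mul]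
  · rw [PowerSeries.coeff_expand_of_not_dvd l hl B hd, mul_zero]

theorem pow_card_eq_expand [Fact l.Prime] (hl : l ≠ 0) (f : PowerSeries (ZMod l)) :
    expand l hl f = f ^ l := by
  have h := MvPowerSeries.map_frobenius_expand (R := ZMod l) l hl (f := f)
  rw [ZMod.frobenius_zmod, MvPowerSeries.map_id] at h
  exact h

/-- From the multiples of `l` in `Δ ^ m` to the partitions. -/
theorem dvd_card_partition [Fact l.Prime] {m : ℕ} (hm : 24 * m + 1 = l * l)
    (h : NoMul l (redInt l deltaInt ^ m)) {n k : ℕ} (hn : n + m = l * k) :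
    l ∣ Fintype.card (Nat.Partition n) := by
  have hl : l ≠ 0 := (Fact.out : l.Prime).ne_zero
  have e : X ^ m * redInt l partitionSeries =
      redInt l deltaInt ^ m * expand l hl (redInt l partitionSeries ^ l) := by
    have hinv : (redInt l partitionSeries * redInt l etaProd) ^ (24 * m) = 1 := by
      rw [← map_mul, partitionSeries_mul_etaProd, map_one, one_pow]
    rw [pow_card_eq_expand hl, ← pow_mul, ← hm, deltaInt, dedekindEtaUnit, map_mul, map_pow,
      PowerSeries.map_X]
    rw [mul_pow] at hinv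
    linear_combination -(X ^ m * redInt l partitionSeries) * hinv
  have h' := (h.mul_expand hl (redInt l partitionSeries ^ l)) k
  rw [← e, ← hn, PowerSeries.coeff_X_pow_mul, coeff_redInt, partitionSeries,
    PowerSeries.coeff_mk, Int.cast_natCast] at h'
  exact (ZMod.natCast_eq_zero_iff _ _).mp h'

theorem noMul_five : NoMul 5 (redInt 5 deltaInt ^ 1) := fun k => by
  rw [pow_one, coeff_redInt, coeff_deltaInt_five, Nat.cast_mul, ZMod.natCast_self, zero_mul,
    zero_mul]

theorem noMul_seven : NoMul 7 (redInt 7 deltaInt ^ 2) := by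
  have : Fact (Nat.Prime 7) := ⟨by norm_num⟩
  set x := redInt 7 eFourInt
  set D := redInt 7 deltaInt
  have h1 := congrArg (redInt 7) delta_eq
  have h2 := congrArg (redInt 7) theta_eSix
  have h3 := congrArg (redInt 7) theta_eFour
  have h0 : redInt 7 (thetaInt eSixInt) = 0 := by
    rw [redInt_thetaInt, redInt_eSix_seven, thetaMod, PowerSeries.derivative_one, mul_zero]
  simp only [map_mul, map_sub, map_pow, map_ofNat, redInt_eSix_seven, h0, mul_zero, mul_one,
    one_pow, redInt_thetaInt] at h1 h2 h3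
  have ha : NoMul 7 D := by
    refine NoMul.of_natCast_mul (c := 1728) (by norm_num) ?_
    rw [Nat.cast_ofNat, show (1728 : PowerSeries (ZMod 7)) * D =
        ((3 : ℕ) : PowerSeries (ZMod 7)) * thetaMod x by
      push_cast; linear_combination h1 - h3 + x * h2]
    exact (noMul_thetaMod x).natCast_mul 3
  have hb : NoMul 7 (x ^ 3 * D) := by
    refine NoMul.of_natCast_mul (c := 4 * 1728) (by norm_num) ?_
    rw [show ((4 * 1728 : ℕ) : PowerSeries (ZMod 7)) * (x ^ 3 * D) =
        ((3 : ℕ) : PowerSeries (ZMod 7)) * thetaMod (x ^ (3 + 1)) by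
      rw [thetaMod_pow]; push_cast; linear_combination 4 * x ^ 3 * (h1 - h3 + x * h2)]
    exact (noMul_thetaMod _).natCast_mul 3
  refine NoMul.of_natCast_mul (c := 1728) (by norm_num) ?_
  rw [show ((1728 : ℕ) : PowerSeries (ZMod 7)) * D ^ 2 = x ^ 3 * D - D by
    push_cast; linear_combination D * h1]
  exact hb.sub ha

/-- The integral series of `E₁₀`. -/
def eTenInt : PowerSeries ℤ := PowerSeries.mk fun m => if m = 0 then 1 else -264 * (σ 9 m : ℤ)

theorem qExpansion_eTen : qExpansion 1 (ModularForm.E (k := 10) (by norm_num)) =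
    eTenInt.map (Int.castRingHom ℂ) := by
  ext m
  rw [PowerSeries.coeff_map, eTenInt, PowerSeries.coeff_mk, E_qExpansion_coeff _ (by decide),
    show bernoulli 10 = 5 / 66 by decide +kernel]
  split_ifs <;> simp [*]
  ring

/-- `E₄ E₆ = E₁₀`. -/
theorem eFour_mul_eSix : eFourInt * eSixInt = eTenInt := by
  set G := ModularForm.E (k := 10) (by norm_num)
  have hG : HasQ 1 ⇑G (eTenInt.map (Int.castRingHom ℂ)) := by
    rw [← qExpansion_eTen]; exact hasQ_form G
  have hP : HasQ 1 (⇑E₄ * ⇑E₆) ((eFourInt * eSixInt).map (Int.castRingHom ℂ)) := by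
    rw [map_mul]; exact hasQ_eFour.mul one_pos hasQ_eSix
  have hinv : ∀ γ : SL(2, ℤ), (⇑E₄ * ⇑E₆ - ⇑G) ∣[((10 : ℕ) : ℤ)] γ = ⇑E₄ * ⇑E₆ - ⇑G := fun γ =>
    (ModularForm.mcast (by decide) (E₄.mul E₆) - G).slash_action_eq' _ ⟨γ, rfl⟩
  have hz := series_eq_zero (k := 10) (by norm_num) hinv (hP.sub hG)
    (by
      rw [← map_sub, PowerSeries.coeff_map, map_sub, PowerSeries.coeff_mul,
        Finset.Nat.antidiagonal_zero, Finset.sum_singleton, eFourInt, eSixInt, eTenInt,
        PowerSeries.coeff_mk, PowerSeries.coeff_mk, PowerSeries.coeff_mk]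
      simp)
  refine PowerSeries.ext fun n => Int.cast_injective (α := ℂ) ?_
  have h := congrArg (coeff n) hz
  simp only [map_sub, PowerSeries.coeff_map, map_zero, eq_intCast] at h
  exact sub_eq_zero.mp h

theorem noMul_eleven : NoMul 11 (redInt 11 deltaInt ^ 5) := by
  have : Fact (Nat.Prime 11) := ⟨by norm_num⟩
  set x := redInt 11 eFourInt
  set y := redInt 11 eSixInt
  set D := redInt 11 deltaInt
  set E := redInt 11 eTwoInt
  have hxy : x * y = 1 := by
    rw [← map_mul, eFour_mul_eSix]
    refine PowerSeries.ext fun n => ?_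
    rw [coeff_redInt, eTenInt, PowerSeries.coeff_mk, PowerSeries.coeff_one]
    split_ifs <;> push_cast
    · rfl
    · rw [show (264 : ZMod 11) = 0 from rfl, neg_zero, zero_mul]
  have h1 := congrArg (redInt 11) delta_eq
  have h2 := congrArg (redInt 11) theta_eSix
  have h3 := congrArg (redInt 11) theta_eFour
  simp only [map_mul, map_sub, map_pow, map_ofNat, redInt_thetaInt] at h1 h2 h3
  rw [show (1728 : PowerSeries (ZMod 11)) = C (1728 : ZMod 11) from (map_ofNat _ _).symm,
    show (1728 : ZMod 11) = 1 from rfl, map_one, one_mul] at h1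
  have h0 : thetaMod x * y + x * thetaMod y = 0 := by
    rw [← thetaMod_mul, hxy, thetaMod, PowerSeries.derivative_one, mul_zero]
  have hE : 5 * E = 2 * y ^ 2 + 3 * x ^ 3 := by
    linear_combination 6 * h0 - 2 * y * h3 - 3 * x * h2 - 5 * E * hxy
  have hX : 15 * thetaMod x = 3 * (x * D) := by
    linear_combination 5 * h3 + x * hE + 5 * y * hxy - 3 * x * h1
  have hY : 10 * thetaMod y + 2 * (y * D) = 0 := by
    linear_combination 5 * h2 + y * hE + 2 * y * h1 + 3 * x ^ 2 * hxy + 2 * x ^ 2 * hxy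
  have hx : ∀ a : ℕ, ¬ 11 ∣ 3 * (a + 1) → NoMul 11 (x ^ (a + 1) * D) := fun a ha => by
    refine NoMul.of_natCast_mul ha ?_
    rw [show ((3 * (a + 1) : ℕ) : PowerSeries (ZMod 11)) * (x ^ (a + 1) * D) =
        ((15 : ℕ) : PowerSeries (ZMod 11)) * thetaMod (x ^ (a + 1)) by
      rw [thetaMod_pow]; push_cast
      linear_combination -((a : PowerSeries (ZMod 11)) + 1) * x ^ a * hX]
    exact (noMul_thetaMod _).natCast_mul 15
  have hy : ∀ b : ℕ, ¬ 11 ∣ 2 * (b + 1) → NoMul 11 (y ^ (b + 1) * D) := fun b hb => by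
    refine NoMul.of_natCast_mul hb ?_
    rw [show ((2 * (b + 1) : ℕ) : PowerSeries (ZMod 11)) * (y ^ (b + 1) * D) =
        0 - ((10 : ℕ) : PowerSeries (ZMod 11)) * thetaMod (y ^ (b + 1)) by
      rw [thetaMod_pow]; push_cast
      linear_combination ((b : PowerSeries (ZMod 11)) + 1) * y ^ b * hY]
    exact (show NoMul 11 0 from fun k => map_zero _).sub ((noMul_thetaMod _).natCast_mul 10)
  rw [show D ^ 5 = x ^ 12 * D - (4 : ℕ) * (x ^ 7 * D) + (6 : ℕ) * (x ^ 2 * D) -
      (4 : ℕ) * (y ^ 3 * D) + y ^ 8 * D by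
    have hD : D ^ 5 = D * (x ^ 3 - y ^ 2) ^ 4 := by rw [← h1]; ring
    have e2 : x ^ 2 * y ^ 2 = 1 := by rw [← mul_pow, hxy, one_pow]
    have e3 : x ^ 3 * y ^ 3 = 1 := by rw [← mul_pow, hxy, one_pow]
    have e4 : x ^ 4 * y ^ 4 = 1 := by rw [← mul_pow, hxy, one_pow]
    rw [hD]
    push_cast
    linear_combination -4 * D * x ^ 7 * e2 + 6 * D * x ^ 2 * e4 - 4 * D * y ^ 3 * e3]
  exact ((((hx 11 (by norm_num)).sub ((hx 6 (by norm_num)).natCast_mul 4)).add
    ((hx 1 (by norm_num)).natCast_mul 6)).sub ((hy 2 (by norm_num)).natCast_mul 4)).add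
    (hy 7 (by norm_num))

end FA.Partition

end
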