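import Fermat.Agent.Tau.FiltrationModP
import Fermat.Agent.Partition.Theta

/-!
# The theorems of Kiming–Olsson and of Ahlgren–Boylan

A congruence `p(l n + b) ≡ 0 (mod l)` kills a class of coefficients of `f = Δ ^ ((l² - 1) / 24)`.
The filtrations of the `θʲ f` force this class to be `0`, and for `l ≥ 13` force `θ ^ ((l + 3) / 2)
f` to be a multiple of `E₄ f`, which its first two coefficients forbid.
-/

set_option autoImplicit false

noncomputable section

open PowerSeries (coeff)
open FA.SwinnertonDyer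

namespace FA.Partition

local notation "Poly" p:max => MvPolynomial (Fin 2) (ZMod p)

variable {p : ℕ}

theorem coeff_thetaP (g : PowerSeries (ZMod p)) (n : ℕ) :
    coeff n (thetaP p g) = (n : ZMod p) * coeff n g :=
  coeff_thetaMod g n

theorem coeff_thetaP_iterate (g : PowerSeries (ZMod p)) (j n : ℕ) :
    coeff n ((thetaP p)^[j] g) = (n : ZMod p) ^ j * coeff n g := by
  induction j with
  | zero => simp
  | succ j ih => rw [Function.iterate_succ_apply', coeff_thetaP, ih, pow_succ]; ring

variable [Fact p.Prime]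

/-- Relations modulo `p` respect the weights modulo `p - 1`. -/
theorem sum_filter_eq_zero (h5 : 5 ≤ p) {ι : Type} (s : Finset ι) (c : ι → ZMod p) (w : ι → ℕ)
    (g : ι → PowerSeries (ZMod p)) (hg : ∀ i ∈ s, IsFormModP p (w i) (g i))
    (h : ∑ i ∈ s, PowerSeries.C (c i) * g i = 0) (n : ℕ) :
    ∑ i ∈ s with w i ≡ n [MOD p - 1], PowerSeries.C (c i) * g i = 0 := by
  have hP : ∀ i, ∃ F : Poly p, i ∈ s → Isob F (w i) ∧ phi p F = g i := fun i => by
    by_cases hi : i ∈ s
    · obtain ⟨F, hF⟩ := (hg i hi).exists_isob h5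
      exact ⟨F, fun _ => hF⟩
    · exact ⟨0, fun h => absurd h hi⟩
  choose F hF using hP
  have hphiC : ∀ a : ZMod p, phi p (MvPolynomial.C a) = PowerSeries.C a := fun a => by simp [phi]
  have hmem : ∑ i ∈ s, MvPolynomial.C (c i) * F i ∈ RingHom.ker (phi p) := by
    show phi p _ = 0
    rw [map_sum, ← h]
    exact Finset.sum_congr rfl fun i hi => by rw [map_mul, hphiC, (hF i hi).2]
  rw [ker_phi h5, Ideal.mem_span_singleton'] at hmem
  obtain ⟨H, hH⟩ := hmem
  have key : ∀ u : (ZMod p)ˣ,
      ∑ i ∈ s, PowerSeries.C (c i * (u : ZMod p) ^ w i) * g i = 0 := fun u => by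
    set τ := MvPolynomial.aeval (R := ZMod p)
      (fun i => MvPolynomial.C ((u : ZMod p) ^ wts i) * MvPolynomial.X i)
    have h2 := congrArg (fun x => phi p (τ x)) hH
    simp only [map_mul, map_sub, map_one, τ, scale_isob u (isob_hassePoly h5),
      ZMod.pow_card_sub_one_eq_one u.ne_zero, phi_hassePoly h5, one_mul, sub_self, mul_zero,
      map_sum] at h2
    refine Eq.trans (Finset.sum_congr rfl fun i hi => ?_) h2.symm
    rw [map_mul, scale_isob u (hF i hi).1, map_mul (phi p), hphiC, (hF i hi).2,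
      MvPolynomial.aeval_C, MvPolynomial.algebraMap_eq, hphiC]
    ring
  have hdiv : ∀ m, p - 1 ∣ m + (p - 2) * n ↔ m ≡ n [MOD p - 1] := fun m => by
    rw [← Nat.modEq_zero_iff_dvd]
    have e : n + (p - 2) * n ≡ 0 [MOD p - 1] := Nat.modEq_zero_iff_dvd.2 ⟨n, by
      rw [show p - 1 = p - 2 + 1 by omega]; ring⟩
    exact ⟨fun hm => Nat.ModEq.add_right_cancel' _ (hm.trans e.symm),
      fun hm => (hm.add_right _).trans e⟩
  have hsum := Finset.sum_eq_zero (s := (Finset.univ : Finset (ZMod p)ˣ)) fun u _ =>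
    show PowerSeries.C ((u : ZMod p) ^ ((p - 2) * n)) *
      (∑ i ∈ s, PowerSeries.C (c i * (u : ZMod p) ^ w i) * g i) = 0 by rw [key u, mul_zero]
  simp only [Finset.mul_sum] at hsum
  rw [Finset.sum_comm] at hsum
  have e : ∀ i ∈ s, ∑ u : (ZMod p)ˣ, PowerSeries.C ((u : ZMod p) ^ ((p - 2) * n)) *
      (PowerSeries.C (c i * (u : ZMod p) ^ w i) * g i) =
      if w i ≡ n [MOD p - 1] then -(PowerSeries.C (c i) * g i) else 0 := fun i _ => by
    have h1 := FiniteField.sum_pow_units (ZMod p) (w i + (p - 2) * n)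
    simp only [ZMod.card, hdiv] at h1
    have h2 : ∀ u : (ZMod p)ˣ, PowerSeries.C ((u : ZMod p) ^ ((p - 2) * n)) *
        (PowerSeries.C (c i * (u : ZMod p) ^ w i) * g i) =
        PowerSeries.C ((u : ZMod p) ^ (w i + (p - 2) * n)) * (PowerSeries.C (c i) * g i) :=
      fun u => by rw [pow_add, map_mul, map_mul]; ring
    rw [Finset.sum_congr rfl fun u _ => h2 u, ← Finset.sum_mul, ← map_sum, h1]
    split_ifs
    · rw [map_neg, map_one, neg_one_mul]
    · rw [map_zero, zero_mul]
  rw [Finset.sum_congr rfl e, ← Finset.sum_filter, Finset.sum_neg_distrib, neg_eq_zero] at hsum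
  exact hsum

/-- In weight divisible by `p` the theta operator raises the weight by `2`. -/
theorem isFormModP_theta_of_dvd (h5 : 5 ≤ p) {n : ℕ} {g : PowerSeries (ZMod p)}
    (h : IsFormModP p n g) (hd : p ∣ n) : IsFormModP p (n + 2) (thetaP p g) := by
  obtain ⟨F, hF, rfl⟩ := h.exists_isob h5
  have e : phi p (MvPolynomial.C (12 : ZMod p)⁻¹ * dOp p F) = thetaP p (phi p F) := by
    rw [← phi_thetaPoly h5 hF, thetaPoly,
      show ((n : ℕ) : Poly p) = 0 from (CharP.cast_eq_zero_iff _ p n).2 hd, zero_mul, zero_mul,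
      add_zero, map_mul (phi p), map_mul (phi p) (MvPolynomial.C _), map_mul (phi p),
      phi_hassePoly h5, one_mul]
  rw [← e]
  exact isFormModP_phi ((dOp_isob hF).C_mul _)

/-- A form of weight `n` divisible by `q ^ d` is a multiple of `Δ ^ d`. -/
theorem eq_pow_mul (h5 : 5 ≤ p) : ∀ {d n : ℕ} {F : Poly p}, Isob F n →
    PowerSeries.X ^ d ∣ phi p F → F = 0 ∨ ∃ G, 12 * d ≤ n ∧ Isob G (n - 12 * d) ∧
      F = (MvPolynomial.X 0 ^ 3 - MvPolynomial.X 1 ^ 2) ^ d * G := by
  intro d
  induction d with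
  | zero => exact fun {n F} hF _ => Or.inr ⟨F, by omega, by simpa using hF, by simp⟩
  | succ d ih =>
    intro n F hF hd
    have h0 : MvPolynomial.eval (fun _ => 1) F = 0 := by
      rw [← constantCoeff_phi]
      exact PowerSeries.X_dvd_iff.1 ((dvd_pow_self _ d.succ_ne_zero).trans hd)
    rcases exists_eq_mul hF h0 with h | ⟨G, hn, hG, rfl⟩
    · exact Or.inl h
    have hu : IsUnit (PowerSeries.C (1728 : ZMod p) *
        ModularCurve.dedekindEtaUnit.map (Int.castRingHom (ZMod p))) := by
      refine ((Ne.isUnit (c1728_ne h5)).map PowerSeries.C).mul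
        (PowerSeries.isUnit_iff_constantCoeff.2 ?_)
      rw [← PowerSeries.coeff_zero_eq_constantCoeff_apply, PowerSeries.coeff_map,
        PowerSeries.coeff_zero_eq_constantCoeff_apply, ModularCurve.constantCoeff_dedekindEtaUnit,
        map_one]
      exact isUnit_one
    have hd' : PowerSeries.X ^ d ∣ phi p G := by
      rw [map_mul, show phi p (MvPolynomial.X 0 ^ 3 - MvPolynomial.X 1 ^ 2) = e4 p ^ 3 - e6 p ^ 2 by
        simp [phi], ← delta_p, show (1728 : PowerSeries (ZMod p)) = PowerSeries.C 1728 from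
          (map_ofNat _ 1728).symm, FA.Tau.deltaInt, map_mul, PowerSeries.map_X, pow_succ',
        show ∀ a b x g : PowerSeries (ZMod p), a * (x * b) * g = x * (a * b * g) from
          fun a b x g => by ring, mul_dvd_mul_iff_left PowerSeries.X_ne_zero,
        hu.dvd_mul_left] at hd
      exact hd
    rcases ih hG hd' with rfl | ⟨G', hn', hG', rfl⟩
    · exact Or.inl (mul_zero _)
    · exact Or.inr ⟨G', by omega, by rwa [show n - 12 * (d + 1) = n - 12 - 12 * d by omega],
        by ring⟩

/-- The least weight is at least twelve times the order. -/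
theorem weight_ge (h5 : 5 ≤ p) {d n : ℕ} {g : PowerSeries (ZMod p)} (h : IsFormModP p n g)
    (hd : PowerSeries.X ^ d ∣ g) (hg : g ≠ 0) : 12 * d ≤ n := by
  obtain ⟨F, hF, rfl⟩ := h.exists_isob h5
  rcases eq_pow_mul h5 hF hd with rfl | ⟨_, hn, -, -⟩
  · exact absurd (map_zero _) hg
  · exact hn

/-- Two weights of one form. -/
theorem modEq_of_isFormModP (h5 : 5 ≤ p) {n n' : ℕ} {g : PowerSeries (ZMod p)}
    (h : IsFormModP p n g) (h' : IsFormModP p n' g) (hg : g ≠ 0) : n ≡ n' [MOD p - 1] := by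
  obtain ⟨F, hF, rfl⟩ := h.exists_isob h5
  obtain ⟨F', hF', he⟩ := h'.exists_isob h5
  exact weight_congr h5 hF hF' he.symm hg

variable (p) in
/-- `Δ ^ d` modulo `p`. -/
def deltaPow (d : ℕ) : PowerSeries (ZMod p) :=
  FA.Tau.deltaInt.map (Int.castRingHom (ZMod p)) ^ d

theorem deltaPow_eq (d : ℕ) : deltaPow p d = PowerSeries.X ^ d *
    ModularCurve.dedekindEtaUnit.map (Int.castRingHom (ZMod p)) ^ d := by
  rw [deltaPow, FA.Tau.deltaInt, map_mul, PowerSeries.map_X, mul_pow]

theorem coeff_deltaPow (d : ℕ) : coeff d (deltaPow p d) = 1 := by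
  have h := PowerSeries.coeff_X_pow_mul
    (ModularCurve.dedekindEtaUnit.map (Int.castRingHom (ZMod p)) ^ d) d 0
  rw [zero_add, ← deltaPow_eq] at h
  rw [h, PowerSeries.coeff_zero_eq_constantCoeff_apply, map_pow,
    ← PowerSeries.coeff_zero_eq_constantCoeff_apply, PowerSeries.coeff_map,
    PowerSeries.coeff_zero_eq_constantCoeff_apply, ModularCurve.constantCoeff_dedekindEtaUnit,
    map_one, one_pow]

theorem coeff_dedekindEtaUnit_one : coeff 1 ModularCurve.dedekindEtaUnit = -24 := by
  have h := congrArg (coeff 2) FA.Tau.theta_delta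
  have e : coeff 2 FA.Tau.deltaInt = coeff 1 ModularCurve.dedekindEtaUnit := by
    rw [FA.Tau.deltaInt, PowerSeries.coeff_succ_X_mul]
  rw [FA.Tau.thetaInt, PowerSeries.coeff_mk, PowerSeries.coeff_mul,
    Finset.Nat.sum_antidiagonal_succ, Finset.Nat.sum_antidiagonal_succ,
    Finset.Nat.antidiagonal_zero, Finset.sum_singleton, FA.Tau.coeff_deltaInt_zero,
    FA.Tau.coeff_deltaInt_one, e] at h
  simp [FA.Tau.eTwoInt] at h
  linarith

theorem coeff_succ_deltaPow {d : ℕ} (hd : 24 * d + 1 = p * p) :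
    coeff (d + 1) (deltaPow p d) = 1 := by
  have h := PowerSeries.coeff_X_pow_mul
    (ModularCurve.dedekindEtaUnit.map (Int.castRingHom (ZMod p)) ^ d) d 1
  rw [add_comm 1 d, ← deltaPow_eq] at h
  rw [h, coeff_one_pow (by rw [← PowerSeries.coeff_zero_eq_constantCoeff_apply,
      PowerSeries.coeff_map, PowerSeries.coeff_zero_eq_constantCoeff_apply,
      ModularCurve.constantCoeff_dedekindEtaUnit, map_one]),
    PowerSeries.coeff_map, coeff_dedekindEtaUnit_one]
  have := congrArg (Nat.cast : ℕ → ZMod p) hd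
  push_cast at this
  rw [ZMod.natCast_self, mul_zero] at this
  simp only [eq_intCast, Int.cast_neg, Int.cast_ofNat]
  linear_combination -this

variable {d : ℕ} (hd : 24 * d + 1 = p * p)

include hd in
theorem natCast_delta_ne : (d : ZMod p) ≠ 0 := fun e => by
  have := congrArg (Nat.cast : ℕ → ZMod p) hd
  push_cast at this
  rw [e, ZMod.natCast_self, mul_zero, mul_zero, zero_add] at this
  exact one_ne_zero this

theorem X_pow_dvd_iterate (j : ℕ) : PowerSeries.X ^ d ∣ (thetaP p)^[j] (deltaPow p d) := by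
  rw [PowerSeries.X_pow_dvd_iff]
  intro m hm
  rw [coeff_thetaP_iterate, deltaPow_eq, PowerSeries.coeff_X_pow_mul', if_neg (by omega),
    mul_zero]

include hd in
theorem iterate_ne_zero (j : ℕ) : (thetaP p)^[j] (deltaPow p d) ≠ 0 := fun e => by
  have h := congrArg (coeff d) e
  rw [coeff_thetaP_iterate, coeff_deltaPow, mul_one, map_zero] at h
  exact pow_ne_zero _ (natCast_delta_ne hd) h

theorem isFormModP_deltaPow (h5 : 5 ≤ p) (d : ℕ) : IsFormModP p (12 * d) (deltaPow p d) := by
  have hD : Isob (MvPolynomial.C (1728 : ZMod p)⁻¹ *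
      (MvPolynomial.X 0 ^ 3 - MvPolynomial.X 1 ^ 2) : Poly p) 12 :=
    MvPolynomial.IsWeightedHomogeneous.C_mul
      (((MvPolynomial.isWeightedHomogeneous_X (ZMod p) wts 0).pow 3).sub
        ((MvPolynomial.isWeightedHomogeneous_X (ZMod p) wts 1).pow 2)) _
  have e : phi p ((MvPolynomial.C (1728 : ZMod p)⁻¹ *
      (MvPolynomial.X 0 ^ 3 - MvPolynomial.X 1 ^ 2)) ^ d) = deltaPow p d := by
    rw [map_pow, map_mul, show phi p (MvPolynomial.X 0 ^ 3 - MvPolynomial.X 1 ^ 2) =
        e4 p ^ 3 - e6 p ^ 2 by simp [phi], ← delta_p,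
      show phi p (MvPolynomial.C (1728 : ZMod p)⁻¹) = PowerSeries.C (1728 : ZMod p)⁻¹ by
        simp [phi],
      show (1728 : PowerSeries (ZMod p)) = PowerSeries.C 1728 from (map_ofNat _ 1728).symm,
      ← mul_assoc, ← map_mul, inv_mul_cancel₀ (c1728_ne h5), map_one, one_mul, deltaPow]
  rw [← e, mul_comm 12 d, ← smul_eq_mul]
  exact isFormModP_phi (hD.pow d)

include hd in
/-- The filtration of `θʲ f` up to `j = (p + 1) / 2`. -/
theorem isLeast_iterate (h5 : 5 ≤ p) : ∀ j ≤ p / 2 + 1,
    IsLeast {n | IsFormModP p n ((thetaP p)^[j] (deltaPow p d))} (12 * d + j * (p + 1)) := by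
  intro j
  induction j with
  | zero =>
    intro _
    refine ⟨by simpa using isFormModP_deltaPow h5 d, fun n hn => ?_⟩
    rw [zero_mul, add_zero]
    exact weight_ge h5 hn (X_pow_dvd_iterate 0) (iterate_ne_zero hd 0)
  | succ j ih =>
    intro hj
    rw [Function.iterate_succ_apply',
      show 12 * d + (j + 1) * (p + 1) = 12 * d + j * (p + 1) + p + 1 by ring]
    refine (SwinnertonDyer.filtration_theta h5 (iterate_ne_zero hd j) (ih (by omega))).2
      fun hdvd => ?_
    have h1 := congrArg (Nat.cast : ℕ → ZMod p) hd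
    have h2 := (ZMod.natCast_eq_zero_iff _ _).2 hdvd
    push_cast at h1 h2
    rw [ZMod.natCast_self, mul_zero] at h1
    rw [ZMod.natCast_self, zero_add, mul_one] at h2
    rcases Nat.eq_zero_or_pos j with rfl | hj0
    · rw [Nat.cast_zero, add_zero] at h2
      exact one_ne_zero (show (1 : ZMod p) = 0 by linear_combination h1 - 2 * h2)
    · have h3 : ((2 * j - 1 : ℕ) : ZMod p) = 0 := by
        rw [Nat.cast_sub (by omega)]
        push_cast
        linear_combination 2 * h2 - h1
      exact natCast_ne (fun h => absurd (Nat.le_of_dvd (by omega) h) (by omega)) h3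

include hd in
/-- **Kiming–Olsson**: only the class `0` can have all coefficients zero. -/
theorem class_eq_zero (h5 : 5 ≤ p) {r : ZMod p}
    (hr : ∀ n : ℕ, (n : ZMod p) = r → coeff n (deltaPow p d) = 0) : r = 0 := by
  by_contra hr0
  obtain ⟨h, hh⟩ : ∃ h, p = 2 * h + 1 := (Fact.out : p.Prime).odd_of_ne_two (by omega)
  set f := deltaPow p d
  have hrel : ∑ i ∈ Finset.range (p - 1),
      PowerSeries.C (r ^ i) * (thetaP p)^[p - 1 - i] f = 0 := by
    ext n
    simp only [map_sum, PowerSeries.coeff_C_mul, coeff_thetaP_iterate, map_zero]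
    by_cases hn : (n : ZMod p) = r
    · simp [hr n hn, f]
    rcases eq_or_ne (n : ZMod p) 0 with hn0 | hn0
    · refine Finset.sum_eq_zero fun i hi => ?_
      rw [Finset.mem_range] at hi
      rw [hn0, zero_pow (by omega), zero_mul, mul_zero]
    · have hg := geom_sum₂_mul r (n : ZMod p) (p - 1)
      rw [ZMod.pow_card_sub_one_eq_one hr0, ZMod.pow_card_sub_one_eq_one hn0, sub_self,
        mul_eq_zero, sub_eq_zero] at hg
      have hg' := hg.resolve_right (Ne.symm hn)
      calc ∑ i ∈ Finset.range (p - 1), r ^ i * ((n : ZMod p) ^ (p - 1 - i) * coeff n f)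
          = (∑ i ∈ Finset.range (p - 1), r ^ i * (n : ZMod p) ^ (p - 1 - 1 - i)) *
              ((n : ZMod p) * coeff n f) := by
            rw [Finset.sum_mul]
            refine Finset.sum_congr rfl fun i hi => ?_
            rw [Finset.mem_range] at hi
            rw [show p - 1 - i = p - 1 - 1 - i + 1 by omega, pow_succ]
            ring
        _ = 0 := by rw [hg', zero_mul]
  have hforms : ∀ j, IsFormModP p (12 * d + j * (p + 1)) ((thetaP p)^[j] f) := fun j => by
    induction j with
    | zero => simpa [f] using isFormModP_deltaPow h5 d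
    | succ j ih =>
      rw [Function.iterate_succ_apply',
        show 12 * d + (j + 1) * (p + 1) = 12 * d + j * (p + 1) + p + 1 by ring]
      exact ih.theta h5
  have hfil := sum_filter_eq_zero h5 (Finset.range (p - 1)) (fun i => r ^ i)
    (fun i => 12 * d + (p - 1 - i) * (p + 1)) _ (fun i _ => hforms _) hrel
    (12 * d + (p + 1))
  have hset : ((Finset.range (p - 1)).filter fun i =>
      12 * d + (p - 1 - i) * (p + 1) ≡ 12 * d + (p + 1) [MOD p - 1]) = {h - 1, 2 * h - 1} := by
    have hmod : p + 1 ≡ 2 [MOD p - 1] := by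
      rw [show p + 1 = 2 + (p - 1) by omega]
      exact Nat.add_modEq_right
    ext i
    rw [Finset.mem_filter, Finset.mem_range, Finset.mem_insert, Finset.mem_singleton]
    have e : 12 * d + (p - 1 - i) * (p + 1) ≡ 12 * d + (p + 1) [MOD p - 1] ↔
        p - 1 - i ≡ 1 [MOD h] := by
      refine ⟨fun hc => ?_, fun hc => ?_⟩
      · have := ((hmod.mul_left _).symm.trans (Nat.ModEq.add_left_cancel' _ hc)).trans hmod
        rw [show p - 1 = h * 2 by omega] at this
        exact Nat.ModEq.mul_right_cancel' two_ne_zero (by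
          rwa [one_mul, show p - 1 - i = h * 2 - i by omega])
      · refine Nat.ModEq.add_left _ ((hmod.mul_left _).trans (Nat.ModEq.trans ?_ hmod.symm))
        rw [show p - 1 = h * 2 by omega]
        simpa using (show h * 2 - i ≡ 1 [MOD h] by
          rwa [show h * 2 - i = p - 1 - i by omega]).mul_right' 2
    rw [e]
    refine ⟨fun ⟨hi, hc⟩ => ?_, ?_⟩
    · obtain ⟨c, hc⟩ := (Nat.modEq_iff_dvd' (by omega : 1 ≤ p - 1 - i)).1 hc.symm
      rcases c with _ | _ | c
      · simp at hc; omega
      · simp at hc; omega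
      · have : h * 2 ≤ h * (c + 1 + 1) := Nat.mul_le_mul_left _ (by omega)
        omega
    · rintro (rfl | rfl)
      · refine ⟨by omega, ?_⟩
        rw [show p - 1 - (h - 1) = 1 + h by omega]
        exact Nat.add_modEq_right
      · refine ⟨by omega, ?_⟩
        rw [show p - 1 - (2 * h - 1) = 1 by omega]
  rw [hset, Finset.sum_pair (by omega), show p - 1 - (h - 1) = h + 1 by omega,
    show p - 1 - (2 * h - 1) = 1 by omega, add_eq_zero_iff_eq_neg] at hfil
  have he : (thetaP p)^[h + 1] f =
      PowerSeries.C (-(r ^ (2 * h - 1)) / r ^ (h - 1)) * (thetaP p)^[1] f := by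
    rw [div_eq_inv_mul, map_mul, map_neg, mul_assoc, neg_mul, ← hfil, ← mul_assoc, ← map_mul,
      inv_mul_cancel₀ (pow_ne_zero _ hr0), map_one, one_mul]
  obtain ⟨F, hF, hF'⟩ := (hforms 1).exists_isob h5
  have hlow := (isLeast_iterate hd h5 (h + 1) (by omega)).2
    (show 12 * d + 1 * (p + 1) ∈ {n | IsFormModP p n ((thetaP p)^[h + 1] f)} by
      rw [he, ← hF', show PowerSeries.C (-(r ^ (2 * h - 1)) / r ^ (h - 1)) =
        phi p (MvPolynomial.C (-(r ^ (2 * h - 1)) / r ^ (h - 1))) by simp [phi], ← map_mul]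
      exact isFormModP_phi (hF.C_mul _))
  have : 2 * (p + 1) ≤ (h + 1) * (p + 1) := Nat.mul_le_mul_right _ (by omega)
  omega

omit [Fact p.Prime] in
theorem not_key_twentyThree : ¬((23 : ZMod 23) ^ 11 * 529 = 241 * (-1) ^ 11) := by decide

include hd in
/-- **Ahlgren–Boylan**: for `p ≥ 13` the class `0` is not all zero. -/
theorem exists_coeff_ne_zero (h13 : 13 ≤ p) :
    ∃ n : ℕ, (n : ZMod p) = 0 ∧ coeff n (deltaPow p d) ≠ 0 := by
  by_contra! hz
  have h5 : 5 ≤ p := by omega
  obtain ⟨h, hh⟩ : ∃ h, p = 2 * h + 1 := (Fact.out : p.Prime).odd_of_ne_two (by omega)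
  set f := deltaPow p d
  have hper : (thetaP p)^[p - 1] f = f := by
    ext n
    rw [coeff_thetaP_iterate]
    rcases eq_or_ne (n : ZMod p) 0 with hn | hn
    · rw [hz n hn, mul_zero]
    · rw [ZMod.pow_card_sub_one_eq_one hn, one_mul]
  have h1 := isLeast_iterate hd h5 (h + 1) (by omega)
  have hdvd : p ∣ 12 * d + (h + 1) * (p + 1) := by
    rw [← ZMod.natCast_eq_zero_iff]
    have h1 := congrArg (Nat.cast : ℕ → ZMod p) hd
    have h2 := congrArg (Nat.cast : ℕ → ZMod p) hh
    push_cast at h1 h2 ⊢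
    rw [ZMod.natCast_self] at h1 h2 ⊢
    have h3 : (2 : ZMod p) * (12 * d + (h + 1) * (0 + 1)) = 0 := by linear_combination h1 - h2
    exact (mul_eq_zero.1 h3).resolve_left (ne_two_three h5).1
  have h2 : IsFormModP p (12 * d + (h + 1) * (p + 1) + 2) ((thetaP p)^[h + 2] f) := by
    rw [Function.iterate_succ_apply']
    exact isFormModP_theta_of_dvd h5 h1.1 hdvd
  classical
  have hex : ∃ n, IsFormModP p n ((thetaP p)^[h + 2] f) := ⟨_, h2⟩
  set n := Nat.find hex with hn_def
  have hn : IsLeast {m | IsFormModP p m ((thetaP p)^[h + 2] f)} n :=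
    ⟨Nat.find_spec hex, fun m hm => Nat.find_min' hex hm⟩
  have hle := hn.2 h2
  have hge := weight_ge h5 hn.1 (X_pow_dvd_iterate (h + 2)) (iterate_ne_zero hd (h + 2))
  have htop : IsFormModP p (12 * d + (h + 2) * (p + 1)) ((thetaP p)^[h + 2] f) := by
    rw [Function.iterate_succ_apply',
      show 12 * d + (h + 2) * (p + 1) = 12 * d + (h + 1) * (p + 1) + p + 1 by ring]
    exact h1.1.theta h5
  have hlt : n < 12 * d + (h + 2) * (p + 1) := by
    have : (h + 1) * (p + 1) + 2 < (h + 2) * (p + 1) := by ring_nf; omega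
    omega
  obtain ⟨s, hs⟩ := (Nat.modEq_iff_dvd' hlt.le).1
    (modEq_of_isFormModP h5 hn.1 htop (iterate_ne_zero hd _))
  rw [show p - 1 = 2 * h by omega] at hs
  have hs1 : 1 ≤ s := by
    rcases s with _ | s
    · rw [mul_zero] at hs; omega
    · omega
  have hs3 : s ≤ h + 3 := by
    by_contra hc
    have : 2 * h * (h + 4) ≤ 2 * h * s := Nat.mul_le_mul_left _ (by omega)
    subst hh
    ring_nf at this hs hge hlt
    omega
  have hS : s = h + 3 := by
    by_contra hne
    have hind : ∀ i ≤ h - 2,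
        IsLeast {m | IsFormModP p m ((thetaP p)^[h + 2 + i] f)} (n + i * (p + 1)) := by
      intro i
      induction i with
      | zero => intro _; simpa using hn
      | succ i ih =>
        intro hi
        rw [← add_assoc (h + 2) i 1, Function.iterate_succ_apply',
          show n + (i + 1) * (p + 1) = n + i * (p + 1) + p + 1 by ring]
        refine (SwinnertonDyer.filtration_theta h5 (iterate_ne_zero hd _) (ih (by omega))).2
          fun hdvd' => ?_
        have e : n + 2 * h * s = 12 * d + (h + 2) * (p + 1) := by omega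
        have e1 := congrArg (Nat.cast : ℕ → ZMod p) hd
        have e2 := congrArg (Nat.cast : ℕ → ZMod p) hh
        have e3 := congrArg (Nat.cast : ℕ → ZMod p) e
        have e4' := (ZMod.natCast_eq_zero_iff _ _).2 hdvd'
        push_cast at e1 e2 e3 e4'
        rw [ZMod.natCast_self] at e1 e2 e3 e4'
        have e5 : (2 : ZMod p) * ((1 + s + i : ℕ) : ZMod p) = 0 := by
          push_cast
          linear_combination 2 * e4' - 2 * e3 - e1 + (1 - 2 * s) * e2
        exact natCast_ne (fun hd' => absurd (Nat.le_of_dvd (by omega) hd') (by omega))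
          ((mul_eq_zero.1 e5).resolve_left (ne_two_three h5).1)
    have hlast := hind (h - 2) le_rfl
    rw [show h + 2 + (h - 2) = p - 1 by omega, hper] at hlast
    have h0 : IsLeast {m | IsFormModP p m f} (12 * d) := by
      have := isLeast_iterate hd h5 0 (by omega)
      simpa [f] using this
    have heq := hlast.unique h0
    obtain ⟨h', rfl⟩ : ∃ h', h = h' + 2 := ⟨h - 2, by omega⟩
    rw [Nat.add_sub_cancel] at heq
    have : 2 * (h' + 2) * s ≤ 2 * (h' + 2) * (h' + 4) := Nat.mul_le_mul_left _ (by omega)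
    subst hh
    ring_nf at this heq hs hlt
    omega
  have hn4 : n = 12 * d + 4 := by
    subst hh hS
    ring_nf at hs hlt
    omega
  obtain ⟨F, hF, hF'⟩ := (hn4 ▸ hn.1 : IsFormModP p (12 * d + 4) _).exists_isob h5
  rcases eq_pow_mul h5 hF (hF' ▸ X_pow_dvd_iterate (h + 2)) with rfl | ⟨G, -, hG, rfl⟩
  · exact iterate_ne_zero hd _ (hF'.symm.trans (map_zero _))
  rw [Nat.add_sub_cancel_left] at hG
  obtain ⟨c, rfl⟩ : ∃ c, G = MvPolynomial.C c * MvPolynomial.X 0 := by
    refine ⟨MvPolynomial.eval (fun _ => 1) G, sub_eq_zero.1 ?_⟩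
    have hX : Isob (MvPolynomial.C (MvPolynomial.eval (fun _ => 1) G) * MvPolynomial.X 0) 4 :=
      (MvPolynomial.isWeightedHomogeneous_X (ZMod p) wts 0).C_mul _
    rcases exists_eq_mul (hG.sub hX) (by simp) with h | ⟨_, h, -, -⟩
    · exact h
    · omega
  have he : (thetaP p)^[h + 2] f =
      PowerSeries.C ((1728 : ZMod p) ^ d * c) * (f * e4 p) := by
    rw [← hF', map_mul, map_mul (phi p), map_pow, show phi p (MvPolynomial.X 0 ^ 3 -
      MvPolynomial.X 1 ^ 2) = e4 p ^ 3 - e6 p ^ 2 by simp [phi], ← delta_p,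
      show phi p (MvPolynomial.C c) = PowerSeries.C c by simp [phi],
      show phi p (MvPolynomial.X 0) = e4 p by simp [phi],
      show (1728 : PowerSeries (ZMod p)) = PowerSeries.C 1728 from (map_ofNat _ 1728).symm,
      mul_pow, map_mul, map_pow]
    simp only [f, deltaPow]
    ring
  have hq := PowerSeries.coeff_X_pow_mul
    (ModularCurve.dedekindEtaUnit.map (Int.castRingHom (ZMod p)) ^ d * e4 p) d
  simp only [← mul_assoc, ← deltaPow_eq] at hq
  have c0 := congrArg (coeff d) he
  have c1 := congrArg (coeff (d + 1)) he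
  rw [coeff_thetaP_iterate, PowerSeries.coeff_C_mul] at c0 c1
  have hu := PowerSeries.coeff_X_pow_mul
    (ModularCurve.dedekindEtaUnit.map (Int.castRingHom (ZMod p)) ^ d) d
  simp only [← deltaPow_eq] at hu
  have q0 := hq 0
  have q1 := hq 1
  have u0 := hu 0
  have u1 := hu 1
  rw [zero_add] at q0 u0
  rw [add_comm 1 d] at q1 u1
  have e40 : coeff 0 (e4 p) = 1 := by simp [e4, FA.Tau.eFourInt]
  have e41 : coeff 1 (e4 p) = 240 := by simp [e4, FA.Tau.eFourInt]
  rw [coeff_deltaPow] at u0
  rw [coeff_succ_deltaPow hd] at u1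
  set v := ModularCurve.dedekindEtaUnit.map (Int.castRingHom (ZMod p)) ^ d
  have r0 : coeff 0 (v * e4 p) = 1 := by
    rw [PowerSeries.coeff_mul, Finset.Nat.antidiagonal_zero, Finset.sum_singleton, ← u0, e40,
      mul_one]
  have r1 : coeff 1 (v * e4 p) = 241 := by
    rw [PowerSeries.coeff_mul, Finset.Nat.sum_antidiagonal_succ, Finset.Nat.antidiagonal_zero,
      Finset.sum_singleton, zero_add, ← u0, ← u1, e40, e41]
    norm_num
  rw [r0] at q0
  rw [r1] at q1
  rw [coeff_deltaPow, q0, mul_one, mul_one] at c0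
  rw [coeff_succ_deltaPow hd, q1, ← c0] at c1
  have e24 : (24 : ZMod p) * d = -1 := by
    have := congrArg (Nat.cast : ℕ → ZMod p) hd
    push_cast at this
    rw [ZMod.natCast_self, mul_zero] at this
    linear_combination this
  have key : (23 : ZMod p) ^ h * 529 = 241 * (-1) ^ h := by
    have := congrArg ((24 : ZMod p) ^ (h + 2) * ·) c1
    push_cast at this
    simp only [← mul_assoc, ← mul_pow, e24] at this
    rw [show (24 : ZMod p) * ((d : ZMod p) + 1) = 23 by linear_combination e24, pow_add,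
      pow_add] at this
    linear_combination this
  have hne : ∀ m : ℕ, (m : ZMod p) = 0 → ∀ q : ℕ, q.Prime → q ∣ p → q ∣ m := fun m hm q _ hq =>
    hq.trans ((ZMod.natCast_eq_zero_iff m p).1 hm)
  have hsmall : p ∣ 288 ∨ p ∣ 770 ∨ p = 23 := by
    by_cases h23 : (23 : ZMod p) = 0
    · exact Or.inr (Or.inr ((Nat.prime_dvd_prime_iff_eq Fact.out (by norm_num)).1
        ((ZMod.natCast_eq_zero_iff 23 p).1 (by exact_mod_cast h23))))
    have hh' : h = p / 2 := by omega
    rcases ZMod.pow_div_two_eq_neg_one_or_one p h23 with e | e <;>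
      rcases neg_one_pow_eq_or (ZMod p) h with e' | e' <;> rw [hh'] at key e' <;>
      rw [e, e'] at key
    · exact Or.inl ((ZMod.natCast_eq_zero_iff 288 p).1 (by push_cast; linear_combination key))
    · exact Or.inr (Or.inl ((ZMod.natCast_eq_zero_iff 770 p).1 (by
        push_cast; linear_combination key)))
    · exact Or.inr (Or.inl ((ZMod.natCast_eq_zero_iff 770 p).1 (by
        push_cast; linear_combination -key)))
    · exact Or.inl ((ZMod.natCast_eq_zero_iff 288 p).1 (by push_cast; linear_combination -key))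
  have hp : p.Prime := Fact.out
  rcases hsmall with hs' | hs' | rfl
  · rw [show 288 = 2 ^ 5 * 3 ^ 2 by norm_num] at hs'
    rcases hp.dvd_mul.1 hs' with h' | h' <;>
      exact absurd (Nat.le_of_dvd (by norm_num) (hp.dvd_of_dvd_pow h')) (by omega)
  · rw [show 770 = 2 * 5 * 7 * 11 by norm_num, hp.dvd_mul, hp.dvd_mul, hp.dvd_mul] at hs'
    rcases hs' with ((h' | h') | h') | h' <;>
      exact absurd (Nat.le_of_dvd (by norm_num) h') (by omega)
  · obtain rfl : h = 11 := by omega
    exact not_key_twentyThree key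

/-- A congruence for the partitions kills a class of coefficients of `Δ ^ d`. -/
theorem coeff_deltaPow_eq_zero {d b : ℕ} (hd : 24 * d + 1 = p * p)
    (hb : ∀ n, p ∣ Fintype.card (Nat.Partition (p * n + b))) (hbp : b < p) {n : ℕ}
    (hn : (n : ZMod p) = ((b + d : ℕ) : ZMod p)) : coeff n (deltaPow p d) = 0 := by
  have hp : p ≠ 0 := (Fact.out : p.Prime).ne_zero
  set P := FA.Tau.redInt p partitionSeries
  set u := FA.Tau.redInt p ModularCurve.etaProd
  have hPu : P * u = 1 := by rw [← map_mul, partitionSeries_mul_etaProd, map_one]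
  have e : deltaPow p d = PowerSeries.X ^ d * P * PowerSeries.expand p hp (u ^ p) := by
    rw [pow_card_eq_expand hp, ← pow_mul, ← hd, deltaPow_eq, ModularCurve.dedekindEtaUnit,
      map_pow, ← pow_mul, pow_succ, show PowerSeries.map (Int.castRingHom (ZMod p))
        ModularCurve.etaProd = u from rfl]
    linear_combination -(PowerSeries.X ^ d * u ^ (24 * d)) * hPu
  rw [e, PowerSeries.coeff_mul]
  refine Finset.sum_eq_zero fun x hx => ?_
  rw [Finset.HasAntidiagonal.mem_antidiagonal] at hx
  by_cases hx2 : p ∣ x.2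
  swap
  · rw [PowerSeries.coeff_expand_of_not_dvd p hp _ hx2, mul_zero]
  rw [PowerSeries.coeff_X_pow_mul']
  split_ifs with hle
  swap
  · rw [zero_mul]
  have hmod : ((x.1 - d : ℕ) : ZMod p) = (b : ZMod p) := by
    rw [Nat.cast_sub hle, sub_eq_iff_eq_add]
    rw [← hx, Nat.cast_add, (ZMod.natCast_eq_zero_iff x.2 p).2 hx2, add_zero] at hn
    rw [hn, Nat.cast_add]
  rw [ZMod.natCast_eq_natCast_iff'] at hmod
  rw [Nat.mod_eq_of_lt hbp] at hmod
  have hdiv : x.1 - d = p * ((x.1 - d) / p) + b := by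
    have := Nat.div_add_mod (x.1 - d) p
    omega
  rw [show coeff (x.1 - d) P = ((Fintype.card (Nat.Partition (x.1 - d)) : ℕ) : ZMod p) by
    rw [FA.Tau.coeff_redInt, partitionSeries, PowerSeries.coeff_mk, Int.cast_natCast], hdiv,
    (ZMod.natCast_eq_zero_iff _ _).2 (hb _), zero_mul]

end FA.Partition

end
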