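import Fermat.Agent.Partition.JCoefficients
import Fermat.Agent.Tau.EigenSystems

/-!
# Lehner's congruences for `j` are the only ones

If `p ∣ c(pn)` for all `n ≥ 1` then `g = E₄³ Δ^(p-1) - c(0) Δ^p` has no coefficient at a multiple
of `p`; for `p ≥ 13` its theta cycle would fall below the weight `12 (p - 1)` that the order at
infinity allows. For `p = 2, 3` the series `1/Δ` only has exponents `-1` modulo `p`.
-/

set_option autoImplicit false

noncomputable section

open PowerSeries (coeff C X expand)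
open FA.Tau ModularCurve FA.SwinnertonDyer

namespace FA.Partition

variable {p : ℕ} [Fact p.Prime]

/-- The series `E₄³ Δ^(p-1) - c(0) Δ^p` modulo `p`. -/
def lehnerSeries (p : ℕ) : PowerSeries (ZMod p) :=
  redInt p eFourInt ^ 3 * redInt p deltaInt ^ (p - 1) -
    C ((coeff 1 jNum : ℤ) : ZMod p) * redInt p deltaInt ^ p

theorem noMul_lehnerSeries (h : ∀ n, 0 < n → (p : ℤ) ∣ coeff (p * n + 1) jNum) :
    NoMul p (lehnerSeries p) := by
  have hp : p.Prime := Fact.out
  obtain ⟨d, rfl⟩ : ∃ d, p = d + 1 := ⟨p - 1, by have := hp.pos; omega⟩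
  set x := redInt (d + 1) eFourInt
  set i := redInt (d + 1) dedekindEtaUnitInv
  set u := redInt (d + 1) dedekindEtaUnit
  have hui : u * i = 1 := by rw [← map_mul, dedekindEtaUnit_mul_inv, map_one]
  set c : ZMod (d + 1) := ((coeff 1 jNum : ℤ) : ZMod (d + 1))
  set R := X ^ d * redInt (d + 1) jNum - C c * X ^ (d + 1)
  have hR : NoMul (d + 1) R := fun m => by
    rcases m with _ | _ | m
    · rw [mul_zero, map_sub, PowerSeries.coeff_C_mul, PowerSeries.coeff_X_pow, if_neg (by omega),
        PowerSeries.coeff_X_pow_mul', if_neg (by have := hp.two_le; omega), mul_zero, sub_zero]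
    · rw [zero_add, mul_one, map_sub, PowerSeries.coeff_C_mul, PowerSeries.coeff_X_pow, if_pos rfl,
        mul_one, PowerSeries.coeff_X_pow_mul', if_pos (by omega), coeff_redInt,
        show d + 1 - d = 1 by omega, sub_self]
    · have hm : 0 < (d + 1) * (m + 1) := Nat.mul_pos d.succ_pos m.succ_pos
      rw [map_sub, PowerSeries.coeff_C_mul, PowerSeries.coeff_X_pow, if_neg (by
          rw [show (d + 1) * (m + 1 + 1) = (d + 1) * (m + 1) + (d + 1) by ring]; omega), mul_zero,
        sub_zero, show (d + 1) * (m + 1 + 1) = (d + 1) * (m + 1) + 1 + d by ring,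
        PowerSeries.coeff_X_pow_mul, coeff_redInt, ZMod.intCast_zmod_eq_zero_iff_dvd]
      exact h _ m.succ_pos
  have e : lehnerSeries (d + 1) = R * expand (d + 1) d.succ_ne_zero u := by
    have h2 : redInt (d + 1) jNum * u = x ^ 3 := by
      rw [jNum, eisenstein4_eq, map_mul, map_pow, mul_assoc, mul_comm (redInt (d + 1) _) u,
        hui, mul_one]
    rw [pow_card_eq_expand, lehnerSeries, Nat.add_sub_cancel, deltaInt, map_mul,
      PowerSeries.map_X, show R * u ^ (d + 1) =
        X ^ d * u ^ d * (redInt (d + 1) jNum * u) - C c * X ^ (d + 1) * u ^ (d + 1) by ring, h2]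
    ring
  rw [e]
  exact hR.mul_expand _ _

theorem coeff_lehnerSeries : coeff (p - 1) (lehnerSeries p) = 1 ∧
    ∀ m < p - 1, coeff m (lehnerSeries p) = 0 := by
  have hp := (Fact.out : p.Prime).pos
  set x := redInt p eFourInt
  set u := redInt p dedekindEtaUnit
  set c : ZMod p := ((coeff 1 jNum : ℤ) : ZMod p)
  have e : lehnerSeries p = X ^ (p - 1) * (x ^ 3 * u ^ (p - 1)) - X ^ p * (C c * u ^ p) := by
    rw [lehnerSeries, deltaInt, map_mul, PowerSeries.map_X, mul_pow, mul_pow]
    ring
  refine ⟨?_, fun m hm => ?_⟩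
  · rw [e, map_sub, PowerSeries.coeff_X_pow_mul', if_pos le_rfl, Nat.sub_self,
      PowerSeries.coeff_X_pow_mul', if_neg (by omega), sub_zero,
      PowerSeries.coeff_zero_eq_constantCoeff_apply, map_mul, map_pow, map_pow]
    have hx : PowerSeries.constantCoeff x = 1 := by
      rw [← PowerSeries.coeff_zero_eq_constantCoeff_apply, coeff_redInt]; simp [eFourInt]
    have hu : PowerSeries.constantCoeff u = 1 := by
      rw [← PowerSeries.coeff_zero_eq_constantCoeff_apply, coeff_redInt,
        PowerSeries.coeff_zero_eq_constantCoeff_apply, constantCoeff_dedekindEtaUnit, Int.cast_one]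
    rw [hx, hu, one_pow, one_pow, one_mul]
  · rw [e, map_sub, PowerSeries.coeff_X_pow_mul', if_neg (by omega),
      PowerSeries.coeff_X_pow_mul', if_neg (by omega), sub_zero]

theorem isFormModP_lehnerSeries (h5 : 5 ≤ p) : IsFormModP p (12 * p) (lehnerSeries p) := by
  obtain ⟨F, hF, hF'⟩ := (isFormModP_deltaPow (p := p) h5 (p - 1)).exists_isob h5
  obtain ⟨G, hG, hG'⟩ := (isFormModP_deltaPow (p := p) h5 p).exists_isob h5
  set c : ZMod p := ((coeff 1 jNum : ℤ) : ZMod p)
  have hX : Isob (MvPolynomial.X 0 ^ 3 * F) (12 * p) := by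
    have h := ((MvPolynomial.isWeightedHomogeneous_X (ZMod p) wts 0).pow 3).mul hF
    rwa [show 3 • wts 0 + 12 * (p - 1) = 12 * p by simp [wts]; omega] at h
  have e : phi p (MvPolynomial.X 0 ^ 3 * F - MvPolynomial.C c * G) = lehnerSeries p := by
    rw [map_sub, map_mul, map_mul (phi p), map_pow, hF', hG',
      show phi p (MvPolynomial.X 0) = e4 p by simp [phi],
      show phi p (MvPolynomial.C c) = C c by simp [phi], deltaPow, deltaPow]
    rfl
  rw [← e]
  exact isFormModP_phi (hX.sub (hG.C_mul c))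

theorem coeff_thirteen_deltaPow [Fact (Nat.Prime 13)] :
    coeff (13 * 1) (deltaPow 13 12) = 11 := by
  rw [deltaPow_eq, show (13 * 1 : ℕ) = 1 + 12 from rfl, PowerSeries.coeff_X_pow_mul,
    coeff_one_pow (by
      rw [← PowerSeries.coeff_zero_eq_constantCoeff_apply, PowerSeries.coeff_map,
        PowerSeries.coeff_zero_eq_constantCoeff_apply, constantCoeff_dedekindEtaUnit, map_one]),
    PowerSeries.coeff_map, coeff_dedekindEtaUnit_one]
  rfl

/-- **For `p ≥ 13` there is no congruence `p ∣ c(pn)`.** -/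
theorem exists_not_dvd_jNum (h13 : 13 ≤ p) :
    ∃ n, 0 < n ∧ ¬(p : ℤ) ∣ coeff (p * n + 1) jNum := by
  by_contra! hall
  have h5 : 5 ≤ p := by omega
  set g := lehnerSeries p with hg
  have hz : ∀ m, coeff (p * m) g = 0 := noMul_lehnerSeries hall
  have hg0 : g ≠ 0 := fun e => by
    have := (coeff_lehnerSeries (p := p)).1
    rw [← hg, e, map_zero] at this
    exact zero_ne_one this
  obtain ⟨w, s, hw, hper, hstep, hs, -⟩ := theta_cycle h5 hg0 (isFormModP_lehnerSeries h5) hz
  have hne : ∀ i, (thetaP p)^[i] g ≠ 0 := fun i e => by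
    have h := congrArg (coeff (p - 1)) e
    rw [coeff_thetaP_iterate, coeff_lehnerSeries.1, map_zero, mul_one] at h
    exact pow_ne_zero _ (natCast_ne fun hd => absurd (Nat.le_of_dvd (by omega) hd) (by omega)) h
  have hdvd : ∀ i, X ^ (p - 1) ∣ (thetaP p)^[i] g := fun i => by
    rw [PowerSeries.X_pow_dvd_iff]
    intro m hm
    rw [coeff_thetaP_iterate, coeff_lehnerSeries.2 m hm, mul_zero]
  have hlow : ∀ i, 12 * (p - 1) ≤ w i := fun i => weight_ge h5 (hw i).1 (hdvd i) (hne i)
  have hw0 : w 0 = 12 * p := by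
    have hle := (hw 0).2 (show 12 * p ∈ {n | IsFormModP p n g} from isFormModP_lehnerSeries h5)
    obtain ⟨q, hq⟩ := (Nat.modEq_iff_dvd' hle).1
      (modEq_of_isFormModP h5 (hw 0).1 (isFormModP_lehnerSeries h5) (hne 0))
    have := hlow 0
    rcases q with _ | q
    · omega
    exfalso
    have : (p - 1) * 1 ≤ (p - 1) * (q + 1) := Nat.mul_le_mul_left _ (by omega)
    -- so `p = 13` and `g` is a multiple of `Δ ^ 12`
    obtain rfl : p = 13 := by omega
    have hw12 : w 0 = 144 := by omega
    obtain ⟨F, hF, hF'⟩ := (hw12 ▸ (hw 0).1 : IsFormModP 13 144 g).exists_isob h5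
    rcases eq_pow_mul h5 hF (hF' ▸ hdvd 0) with rfl | ⟨G, -, hG, rfl⟩
    · exact hg0 (hF'.symm.trans (map_zero _))
    obtain ⟨b, rfl⟩ : ∃ b, G = MvPolynomial.C b := ⟨_, isob_zero_eq_C (by simpa using hG)⟩
    have e : C ((1728 : ZMod 13) ^ 12 * b) * deltaPow 13 12 = g := by
      rw [← hF', deltaPow]
      simp only [map_mul, map_pow]
      rw [
        show phi 13 (MvPolynomial.C b) = C b by simp [phi],
        show phi 13 (MvPolynomial.X 0 ^ 3 - MvPolynomial.X 1 ^ 2) = e4 13 ^ 3 - e6 13 ^ 2 by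
          simp [phi], ← delta_p,
        show (1728 : PowerSeries (ZMod 13)) = C 1728 from (map_ofNat _ 1728).symm,
        mul_pow]
      ring
    have h12 := congrArg (coeff 12) e
    have h13' := congrArg (coeff 13) e
    rw [PowerSeries.coeff_C_mul] at h12 h13'
    rw [coeff_deltaPow, mul_one, hg,
      show coeff 12 (lehnerSeries 13) = 1 from coeff_lehnerSeries.1] at h12
    rw [h12, one_mul] at h13'
    have h := coeff_thirteen_deltaPow.symm.trans (h13'.trans (hz 1))
    have h11 : ((11 : ℕ) : ZMod 13) = 0 := by exact_mod_cast h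
    exact absurd ((ZMod.natCast_eq_zero_iff 11 13).1 h11) (by norm_num)
  have h1 := hstep 0
  have hs0 : s 0 ≠ 0 := fun e => (hs 0).1 e (hw0 ▸ dvd_mul_left p 12)
  have hl1 := hlow 1
  rw [zero_add, hw0] at h1
  rcases lt_or_ge (s 0) 3 with hs3 | hs3
  swap
  · have : 3 * (p - 1) ≤ s 0 * (p - 1) := Nat.mul_le_mul_right _ hs3
    omega
  rcases (show s 0 = 1 ∨ s 0 = 2 by omega) with e | e <;> rw [e] at h1
  · have hrun : ∀ i, i + 2 ≤ p → w (1 + i) = 12 * p + 2 + i * (p + 1) := by
      intro i
      induction i with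
      | zero => intro _; rw [Nat.add_zero]; omega
      | succ i ih =>
        intro hi
        have h2 := hstep (1 + i)
        rw [(hs (1 + i)).2 fun hd => by
            rw [ih (by omega), show 12 * p + 2 + i * (p + 1) = 2 + i + p * (12 + i) by ring] at hd
            exact absurd (Nat.le_of_dvd (by omega) ((Nat.dvd_add_left (dvd_mul_right _ _)).1 hd))
              (by omega), zero_mul, add_zero, ih (by omega)] at h2
        rw [← add_assoc, h2]
        ring
    have h2 := hrun (p - 2) (by omega)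
    rw [show 1 + (p - 2) = 0 + (p - 1) by omega, hper, hw0] at h2
    omega
  · -- only `p = 13` is left, with a form of weight `2`
    have hp14 : p ≠ 14 := fun e => absurd (e ▸ (Fact.out : p.Prime)) (by decide)
    have hp15 : p ≠ 15 := fun e => absurd (e ▸ (Fact.out : p.Prime)) (by decide)
    obtain rfl : p = 13 := by omega
    have hw1 : w 1 = 12 * 12 + 2 := by omega
    obtain ⟨F, hF, hF'⟩ := (hw1 ▸ (hw 1).1 : IsFormModP 13 (12 * 12 + 2) _).exists_isob h5
    rcases eq_pow_mul h5 hF (hF' ▸ hdvd 1) with rfl | ⟨G, -, hG, rfl⟩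
    · exact hne 1 (hF'.symm.trans (map_zero _))
    · rw [Nat.add_sub_cancel_left] at hG
      rw [isob_two hG, mul_zero, map_zero] at hF'
      exact hne 1 hF'.symm

/-- The congruences modulo `2` and `3`. -/
theorem dvd_jNum_of_two_three (h : p ∣ 24) (h240 : p ∣ 240) {n : ℕ} :
    (p : ℤ) ∣ coeff (p * n + 1) jNum := by
  have hp : p.Prime := Fact.out
  have hE : redInt p eFourInt = 1 := by
    ext m
    rw [coeff_redInt, eFourInt, PowerSeries.coeff_mk, PowerSeries.coeff_one]
    split_ifs with hm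
    · simp
    · push_cast
      rw [show ((240 : ZMod p)) = ((240 : ℕ) : ZMod p) by simp,
        (ZMod.natCast_eq_zero_iff 240 p).2 h240, zero_mul]
  have hinv : dedekindEtaUnitInv = partitionSeries ^ 24 := by
    have h1 : dedekindEtaUnit * partitionSeries ^ 24 = 1 := by
      rw [dedekindEtaUnit, ← mul_pow, mul_comm, partitionSeries_mul_etaProd, one_pow]
    calc dedekindEtaUnitInv = dedekindEtaUnitInv * (dedekindEtaUnit * partitionSeries ^ 24) := by
          rw [h1, mul_one]
      _ = dedekindEtaUnit * dedekindEtaUnitInv * partitionSeries ^ 24 := by ring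
      _ = _ := by rw [dedekindEtaUnit_mul_inv, one_mul]
  obtain ⟨e, he⟩ := h
  rw [← ZMod.intCast_zmod_eq_zero_iff_dvd, ← coeff_redInt, jNum, eisenstein4_eq, map_mul, map_pow,
    hE, one_pow, one_mul, hinv, map_pow, he, mul_comm p e, pow_mul,
    ← pow_card_eq_expand hp.ne_zero]
  exact PowerSeries.coeff_expand_of_not_dvd _ _ _ fun hd =>
    hp.not_dvd_one ((Nat.dvd_add_right (dvd_mul_right p n)).1 hd)

end FA.Partition

end
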