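import Fermat.Agent.Partition.JCoefficients
import Fermat.Agent.Tau.Mordell
import Mathlib.NumberTheory.Basic

/-!
# The partitions modulo the squares of 5, 7 and 11

Modulo `l²` the series `∑ p(n) q^(n + m)` is `Δ ^ m` times a series in `q ^ l`, `24 m + 1 = l²`.
`T_l (Δ ^ m)` is a combination of the `Δ ^ i E₄ ^ (3 (m - i))`, `0 < i ≤ m`, with coefficients
divisible by `l`, and each of these has, modulo `l`, no coefficient at a multiple of `l`.
-/

set_option autoImplicit false

noncomputable section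

open UpperHalfPlane hiding I
open ModularForm EisensteinSeries FA.Eis FA.Tau ModularCurve
open PowerSeries (coeff C X expand)
open CongruenceSubgroup
open scoped MatrixGroups

namespace FA.Partition

/-- `Δ ^ i E₄ ^ (3 (m - i))`. -/
def squareBasis (m i : ℕ) : PowerSeries ℤ := deltaInt ^ i * eFourInt ^ (3 * (m - i))

/-- The coefficients at the multiples of `l`. -/
def atMultiples (l : ℕ) (A : PowerSeries ℤ) : PowerSeries ℤ :=
  PowerSeries.mk fun i => coeff (l * i) A

/-- The series of `T_l` in weight `w`. -/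
def heckeInt (l w : ℕ) (A : PowerSeries ℤ) : PowerSeries ℤ :=
  PowerSeries.mk fun n =>
    coeff (n * l) A + if l ∣ n then (l : ℤ) ^ (w - 1) * coeff (n / l) A else 0

theorem coeff_mul_expand {l : ℕ} (hl : l ≠ 0) (A B : PowerSeries ℤ) (k : ℕ) :
    coeff (l * k) (A * expand l hl B) = coeff k (atMultiples l A * B) := by
  rw [PowerSeries.coeff_mul, PowerSeries.coeff_mul]
  symm
  refine Finset.sum_of_injOn (fun x => (l * x.1, l * x.2)) (fun a _ b _ h => ?_) (fun x hx => ?_)
    (fun x hx hx' => ?_) fun x _ => ?_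
  · simp only [Prod.mk.injEq] at h
    exact Prod.ext (Nat.eq_of_mul_eq_mul_left (Nat.pos_of_ne_zero hl) h.1)
      (Nat.eq_of_mul_eq_mul_left (Nat.pos_of_ne_zero hl) h.2)
  · refine Finset.mem_coe.mpr (Finset.HasAntidiagonal.mem_antidiagonal.mpr ?_)
    rw [← mul_add, Finset.HasAntidiagonal.mem_antidiagonal.mp hx]
  · by_cases hd : l ∣ x.2
    · refine absurd ?_ hx'
      have he := Finset.HasAntidiagonal.mem_antidiagonal.mp hx
      obtain ⟨j, hj⟩ := hd
      obtain ⟨i, hi⟩ : l ∣ x.1 := (Nat.dvd_add_left ⟨j, hj⟩).mp (he.symm ▸ dvd_mul_right l k)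
      refine ⟨(i, j), Finset.mem_coe.mpr (Finset.HasAntidiagonal.mem_antidiagonal.mpr ?_),
        Prod.ext hi.symm hj.symm⟩
      exact Nat.eq_of_mul_eq_mul_left (Nat.pos_of_ne_zero hl) (by rw [mul_add, ← hi, ← hj, he])
    · rw [PowerSeries.coeff_expand_of_not_dvd l hl B hd, mul_zero]
  · rw [atMultiples, PowerSeries.coeff_mk, PowerSeries.coeff_expand_mul]

theorem dvd_expand_sub_pow {l : ℕ} [Fact l.Prime] (hl : l ≠ 0) (f : PowerSeries ℤ) :
    (l : PowerSeries ℤ) ∣ expand l hl f - f ^ l := by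
  have h : ∀ n, (l : ℤ) ∣ coeff n (expand l hl f - f ^ l) := fun n => by
    rw [← ZMod.intCast_zmod_eq_zero_iff_dvd, ← coeff_redInt, map_sub, PowerSeries.map_expand,
      map_pow, pow_card_eq_expand hl, sub_self, map_zero]
  choose g hg using h
  refine ⟨PowerSeries.mk g, PowerSeries.ext fun n => ?_⟩
  rw [← map_natCast (C : ℤ →+* PowerSeries ℤ) l, PowerSeries.coeff_C_mul, PowerSeries.coeff_mk,
    hg n]

/-- Modulo `l²` the partitions are read on the coefficients of `Δ ^ m`. -/
theorem dvd_card_sub {l m : ℕ} [Fact l.Prime] (hm : 24 * m + 1 = l * l) {n k : ℕ}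
    (hn : n + m = l * k) : ((l : ℤ) ^ 2) ∣ (Fintype.card (Nat.Partition n) : ℤ) -
      coeff k (atMultiples l (deltaInt ^ m) * partitionSeries ^ l) := by
  have hl : l ≠ 0 := (Fact.out : l.Prime).ne_zero
  obtain ⟨H, hH⟩ := dvd_sub_pow_of_dvd_sub (dvd_expand_sub_pow hl partitionSeries) 1
  rw [pow_one, ← map_pow, ← pow_mul] at hH
  have e : X ^ m * partitionSeries = deltaInt ^ m * partitionSeries ^ (l * l) := by
    have hinv : (partitionSeries * etaProd) ^ (24 * m) = 1 := by
      rw [partitionSeries_mul_etaProd, one_pow]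
    rw [← hm, deltaInt, dedekindEtaUnit]
    rw [mul_pow] at hinv
    linear_combination -(X ^ m * partitionSeries) * hinv
  have e' : X ^ m * partitionSeries = deltaInt ^ m * expand l hl (partitionSeries ^ l) -
      ((l ^ 2 : ℕ) : PowerSeries ℤ) * (deltaInt ^ m * H) := by
    push_cast
    linear_combination e - deltaInt ^ m * hH
  refine ⟨-coeff (l * k) (deltaInt ^ m * H), ?_⟩
  have h := congrArg (coeff (l * k)) e'
  rw [map_sub, coeff_mul_expand, ← map_natCast (C : ℤ →+* PowerSeries ℤ),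
    PowerSeries.coeff_C_mul, ← hn, PowerSeries.coeff_X_pow_mul, hn, partitionSeries,
    PowerSeries.coeff_mk] at h
  rw [← partitionSeries] at h
  push_cast at h
  linear_combination h

theorem coeff_squareBasis {m i n : ℕ} (h : n < i) : coeff n (squareBasis m i) = 0 := by
  rw [squareBasis, deltaInt, mul_pow, mul_assoc, PowerSeries.coeff_X_pow_mul', if_neg (by omega)]

theorem coeff_squareBasis_self (m i : ℕ) : coeff i (squareBasis m i) = 1 := by
  rw [squareBasis, deltaInt, mul_pow, mul_assoc, PowerSeries.coeff_X_pow_mul', if_pos le_rfl,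
    Nat.sub_self, PowerSeries.coeff_zero_eq_constantCoeff, map_mul, map_pow, map_pow,
    constantCoeff_dedekindEtaUnit, eFourInt]
  simp

/-- Triangular reduction of a series by the basis, with coefficients divisible by `l`. -/
theorem exists_combination {l m : ℕ} {A : PowerSeries ℤ} (h0 : coeff 0 A = 0)
    (hA : ∀ n, (l : ℤ) ∣ coeff n A) : ∀ j ≤ m, ∃ c : ℕ → ℤ, (∀ i, (l : ℤ) ∣ c i) ∧
      (∃ Φ : ModularForm 𝒮ℒ ((12 * m : ℕ) : ℤ), HasQ 1 ⇑Φ ((∑ i ∈ Finset.range j,
        C (c i) * squareBasis m (i + 1)).map (Int.castRingHom ℂ))) ∧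
      ∀ n ≤ j, coeff n (∑ i ∈ Finset.range j, C (c i) * squareBasis m (i + 1)) = coeff n A := by
  intro j
  induction j with
  | zero =>
    refine fun _ => ⟨fun _ => 0, fun _ => dvd_zero _, ⟨0, fun z => ?_⟩, fun n hn => ?_⟩
    · simp [hasSum_zero]
    · rw [Nat.le_zero.mp hn, h0]
      simp
  | succ j ih =>
    intro hj
    obtain ⟨c, hc, ⟨Φ, hΦ⟩, heq⟩ := ih (Nat.le_of_succ_le hj)
    set S := ∑ i ∈ Finset.range j, C (c i) * squareBasis m (i + 1) with hS
    set d : ℤ := coeff (j + 1) A - coeff (j + 1) S with hd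
    have hdvd : (l : ℤ) ∣ d := by
      refine dvd_sub (hA _) ?_
      rw [hS, map_sum]
      exact Finset.dvd_sum fun i _ => by
        rw [PowerSeries.coeff_C_mul]
        exact (hc i).mul_right _
    refine ⟨Function.update c j d, fun i => ?_, ?_, fun n hn => ?_⟩
    · rcases eq_or_ne i j with rfl | h
      · rwa [Function.update_self]
      · rw [Function.update_of_ne h]
        exact hc i
    all_goals
      have hsum : ∑ i ∈ Finset.range (j + 1), C (Function.update c j d i) * squareBasis m (i + 1) =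
          S + C d * squareBasis m (j + 1) := by
        rw [Finset.sum_range_succ, Function.update_self]
        exact congrArg (· + _) (Finset.sum_congr rfl fun i hi => by
          rw [Function.update_of_ne (Finset.mem_range.mp hi).ne])
      rw [hsum]
    · let G : ModularForm 𝒮ℒ ((12 * m : ℕ) : ℤ) := ModularForm.mcast
        (by push_cast [Nat.cast_sub hj]; ring)
        (((CuspForm.discriminant : ModularForm 𝒮ℒ 12).pow (j + 1)).mul
          (E₄.pow (3 * (m - (j + 1)))))
      refine ⟨Φ + (d : ℂ) • G, ?_⟩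
      rw [map_add, map_mul, PowerSeries.map_C, eq_intCast, ← PowerSeries.smul_eq_C_mul,
        squareBasis, map_mul, map_pow, map_pow]
      have hG : ⇑G = ModularForm.discriminant ^ (j + 1) * ⇑E₄ ^ (3 * (m - (j + 1))) := by
        simp only [G, coe_mcast, coe_mul, coe_pow]
        rfl
      rw [FunLike.coe_add, FunLike.coe_smul, hG]
      exact hΦ.add (((hasQ_discriminant.pow one_pos _).mul one_pos
        (hasQ_eFour.pow one_pos _)).smul _)
    · rw [map_add, PowerSeries.coeff_C_mul]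
      rcases hn.lt_or_eq with h | rfl
      · rw [coeff_squareBasis h, mul_zero, add_zero, heq n (Nat.lt_succ_iff.mp h)]
      · rw [coeff_squareBasis_self, mul_one, hd]
        ring

/-- `T_l (Δ ^ m)` is a combination of the basis with coefficients divisible by `l`. -/
theorem exists_heckeInt_eq {l m : ℕ} (hl : l.Prime) (hm : 0 < m)
    (h : ∀ n, (l : ℤ) ∣ coeff (n * l) (deltaInt ^ m)) :
    ∃ c : ℕ → ℤ, (∀ i, (l : ℤ) ∣ c i) ∧
      heckeInt l (12 * m) (deltaInt ^ m) =
        ∑ i ∈ Finset.range m, C (c i) * squareBasis m (i + 1) := by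
  set A := heckeInt l (12 * m) (deltaInt ^ m) with hA
  let f : ModularForm (Gamma0 1) ((12 * m : ℕ) : ℤ) := ModularForm.mcast (by push_cast; ring)
    ((CuspForm.discriminant : ModularForm 𝒮ℒ 12).pow m) FA.EisCong.gamma0_one_coe
  let g : ModularForm 𝒮ℒ ((12 * m : ℕ) : ℤ) := ModularForm.mcast rfl
    (ModularForm.heckeTLin _ hl hl.not_dvd_one f) FA.EisCong.gamma0_one_coe.symm
  have hf : HasQ 1 ⇑f ((deltaInt ^ m).map (Int.castRingHom ℂ)) := by
    rw [show ⇑f = ModularForm.discriminant ^ m by simp only [f, coe_mcast, coe_pow]; rfl, map_pow]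
    exact hasQ_discriminant.pow one_pos m
  have hg : HasQ 1 ⇑g (A.map (Int.castRingHom ℂ)) := by
    have e : qExpansion 1 ⇑g = A.map (Int.castRingHom ℂ) := by
      ext n
      have hT := ModularFormClass.qCoeff_heckeT f (one_mem_strictPeriods_Gamma0 1) hl.ne_zero n
      rw [ModularForm.coeffHeckeT_apply] at hT
      simp only [ModularFormClass.qCoeff, hf.qExpansion_eq one_pos] at hT
      show (qExpansion 1 (ModularForm.heckeT _ l ⇑f)).coeff n = _
      rw [hT, hA, heckeInt, PowerSeries.coeff_map, PowerSeries.coeff_map, PowerSeries.coeff_map,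
        PowerSeries.coeff_mk, show ((12 * m : ℕ) : ℤ) - 1 = ((12 * m - 1 : ℕ) : ℤ) by omega,
        zpow_natCast]
      split_ifs <;> simp
    rw [← e]
    exact hasQ_form g
  have hd : ∀ n, (l : ℤ) ∣ coeff n A := fun n => by
    rw [hA, heckeInt, PowerSeries.coeff_mk]
    refine dvd_add (h n) ?_
    split_ifs
    · exact (dvd_pow_self _ (by omega)).mul_right _
    · exact dvd_zero _
  have h0 : coeff 0 A = 0 := by
    simp [hA, heckeInt, deltaInt, hm.ne']
  obtain ⟨c, hc, ⟨Φ, hΦ⟩, heq⟩ := exists_combination h0 hd m le_rfl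
  refine ⟨c, hc, PowerSeries.map_injective (Int.castRingHom ℂ) Int.cast_injective ?_⟩
  have hq : qExpansion 1 ⇑(g - Φ) = A.map (Int.castRingHom ℂ) -
      (∑ i ∈ Finset.range m, C (c i) * squareBasis m (i + 1)).map (Int.castRingHom ℂ) :=
    (show HasQ 1 ⇑(g - Φ) _ from hg.sub hΦ).qExpansion_eq one_pos
  have hord : ((12 * m / 12 : ℕ) : ℕ∞) < (qExpansion 1 ⇑(g - Φ)).order := by
    rw [hq, Nat.mul_div_cancel_left m (by norm_num), ← map_sub]
    refine lt_of_lt_of_le (Nat.cast_lt.mpr (Nat.lt_succ_self m)) (PowerSeries.nat_le_order _ _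
      fun n hn => ?_)
    rw [PowerSeries.coeff_map, map_sub, heq n (Nat.lt_succ_iff.mp hn), sub_self, map_zero]
  have hz : g - Φ = 0 := ModularForm.sturm_bound_levelOne_nat hord
  rw [hz] at hq
  refine sub_eq_zero.mp (hq.symm.trans ?_)
  simp [UpperHalfPlane.qExpansion_zero]

/-- **The congruence modulo `l²`.** -/
theorem sq_dvd_card_partition {l m : ℕ} [Fact l.Prime] (hm : 24 * m + 1 = l * l) (hm0 : 0 < m)
    (hΔ : NoMul l (redInt l deltaInt ^ m))
    (hB : ∀ i < m, NoMul l (redInt l (squareBasis m (i + 1)))) {n j : ℕ}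
    (hn : n + m = l * (l * j)) : l ^ 2 ∣ Fintype.card (Nat.Partition n) := by
  have hp : l.Prime := Fact.out
  have hdiv : ∀ k, (l : ℤ) ∣ coeff (k * l) (deltaInt ^ m) := fun k => by
    rw [← ZMod.intCast_zmod_eq_zero_iff_dvd, ← coeff_redInt, map_pow, mul_comm]
    exact hΔ k
  obtain ⟨c, hc, heq⟩ := exists_heckeInt_eq hp hm0 hdiv
  set V : PowerSeries ℤ :=
    PowerSeries.mk fun i => if l ∣ i then coeff (i / l) (deltaInt ^ m) else 0
  have hU : atMultiples l (deltaInt ^ m) = ∑ i ∈ Finset.range m, C (c i) * squareBasis m (i + 1) -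
      C ((l : ℤ) ^ (12 * m - 1)) * V := by
    rw [← heq]
    refine PowerSeries.ext fun i => ?_
    rw [map_sub, PowerSeries.coeff_C_mul, atMultiples, heckeInt, PowerSeries.coeff_mk,
      PowerSeries.coeff_mk, PowerSeries.coeff_mk, mul_comm l i]
    split_ifs <;> ring
  have h := dvd_card_sub hm hn
  rw [hU, sub_mul, map_sub, Finset.sum_mul, map_sum] at h
  have h1 : ((l : ℤ) ^ 2) ∣ ∑ i ∈ Finset.range m,
      coeff (l * j) (C (c i) * squareBasis m (i + 1) * partitionSeries ^ l) := by
    refine Finset.dvd_sum fun i hi => ?_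
    rw [mul_assoc, PowerSeries.coeff_C_mul, sq]
    refine mul_dvd_mul (hc i) ?_
    rw [← ZMod.intCast_zmod_eq_zero_iff_dvd, ← coeff_redInt, map_mul, map_pow,
      ← pow_card_eq_expand hp.ne_zero]
    exact (hB i (Finset.mem_range.mp hi)).mul_expand _ _ j
  have h2 : ((l : ℤ) ^ 2) ∣
      coeff (l * j) (C ((l : ℤ) ^ (12 * m - 1)) * V * partitionSeries ^ l) := by
    rw [mul_assoc, PowerSeries.coeff_C_mul]
    exact (pow_dvd_pow _ (by omega)).mul_right _
  have h3 := dvd_add h (dvd_sub h1 h2)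
  rw [sub_add_cancel] at h3
  exact_mod_cast h3

theorem noMul_squareBasis_five : ∀ i < 1, NoMul 5 (redInt 5 (squareBasis 1 (i + 1))) := by
  intro i hi
  obtain rfl : i = 0 := by omega
  rw [squareBasis, Nat.sub_self, mul_zero, pow_zero, mul_one, map_pow]
  exact noMul_five

theorem noMul_squareBasis_seven : ∀ i < 2, NoMul 7 (redInt 7 (squareBasis 2 (i + 1))) := by
  intro i hi
  have : Fact (Nat.Prime 7) := ⟨by norm_num⟩
  rw [squareBasis, map_mul, map_pow, map_pow]
  interval_cases i
  · set x := redInt 7 eFourInt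
    set D := redInt 7 deltaInt
    have h1 := congrArg (redInt 7) delta_eq
    have h2 := congrArg (redInt 7) theta_eSix
    have h3 := congrArg (redInt 7) theta_eFour
    have h0 : redInt 7 (thetaInt eSixInt) = 0 := by
      rw [redInt_thetaInt, redInt_eSix_seven, thetaMod, PowerSeries.derivative_one, mul_zero]
    simp only [map_mul, map_sub, map_pow, map_ofNat, redInt_eSix_seven, h0, mul_zero, mul_one,
      one_pow, redInt_thetaInt] at h1 h2 h3
    refine NoMul.of_natCast_mul (c := 4 * 1728) (by norm_num) ?_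
    rw [show ((4 * 1728 : ℕ) : PowerSeries (ZMod 7)) * (D ^ (0 + 1) * x ^ (3 * (2 - (0 + 1)))) =
        ((3 : ℕ) : PowerSeries (ZMod 7)) * thetaMod (x ^ (3 + 1)) by
      rw [thetaMod_pow]; push_cast; norm_num
      linear_combination 4 * x ^ 3 * (h1 - h3 + x * h2)]
    exact (noMul_thetaMod _).natCast_mul 3
  · rw [show 3 * (2 - (1 + 1)) = 0 from rfl, pow_zero, mul_one]
    exact noMul_seven

theorem noMul_squareBasis_eleven : ∀ i < 5, NoMul 11 (redInt 11 (squareBasis 5 (i + 1))) := by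
  have : Fact (Nat.Prime 11) := ⟨by norm_num⟩
  intro i hi
  rw [squareBasis, map_mul, map_pow, map_pow]
  set x := redInt 11 eFourInt
  set y := redInt 11 eSixInt
  set D := redInt 11 deltaInt
  set E := redInt 11 eTwoInt
  have hxy : x * y = 1 := by
    rw [← map_mul, eFour_mul_eSix]
    refine PowerSeries.ext fun n => ?_
    rw [coeff_redInt, eTenInt, PowerSeries.coeff_mk, PowerSeries.coeff_one]
    split_ifs <;> push_cast
    · rfl
    · rw [show (264 : ZMod 11) = 0 from rfl, neg_zero, zero_mul]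
  have h1 := congrArg (redInt 11) delta_eq
  have h2 := congrArg (redInt 11) theta_eSix
  have h3 := congrArg (redInt 11) theta_eFour
  simp only [map_mul, map_sub, map_pow, map_ofNat, redInt_thetaInt] at h1 h2 h3
  rw [show (1728 : PowerSeries (ZMod 11)) = C (1728 : ZMod 11) from (map_ofNat _ _).symm,
    show (1728 : ZMod 11) = 1 from rfl, map_one, one_mul] at h1
  have h0 : thetaMod x * y + x * thetaMod y = 0 := by
    rw [← thetaMod_mul, hxy, thetaMod, PowerSeries.derivative_one, mul_zero]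
  have hE : 5 * E = 2 * y ^ 2 + 3 * x ^ 3 := by
    linear_combination 6 * h0 - 2 * y * h3 - 3 * x * h2 - 5 * E * hxy
  have hX : 15 * thetaMod x = 3 * (x * D) := by
    linear_combination 5 * h3 + x * hE + 5 * y * hxy - 3 * x * h1
  have hY : 10 * thetaMod y + 2 * (y * D) = 0 := by
    linear_combination 5 * h2 + y * hE + 2 * y * h1 + 5 * x ^ 2 * hxy
  have hx : ∀ a : ℕ, ¬ 11 ∣ 3 * (a + 1) → NoMul 11 (x ^ (a + 1) * D) := fun a ha => by
    refine NoMul.of_natCast_mul ha ?_
    rw [show ((3 * (a + 1) : ℕ) : PowerSeries (ZMod 11)) * (x ^ (a + 1) * D) =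
        ((15 : ℕ) : PowerSeries (ZMod 11)) * thetaMod (x ^ (a + 1)) by
      rw [thetaMod_pow]; push_cast
      linear_combination -((a : PowerSeries (ZMod 11)) + 1) * x ^ a * hX]
    exact (noMul_thetaMod _).natCast_mul 15
  have hy : NoMul 11 (y ^ (2 + 1) * D) := by
    refine NoMul.of_natCast_mul (c := 2 * (2 + 1)) (by norm_num) ?_
    rw [show ((2 * (2 + 1) : ℕ) : PowerSeries (ZMod 11)) * (y ^ (2 + 1) * D) =
        ((-10 : ℤ) : PowerSeries (ZMod 11)) * thetaMod (y ^ (2 + 1)) by
      rw [thetaMod_pow]; push_cast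
      linear_combination 3 * y ^ 2 * hY]
    exact (noMul_thetaMod _).intCast_mul _
  have e2 : x ^ 2 * y ^ 2 = 1 := by rw [← mul_pow, hxy, one_pow]
  have e3 : x ^ 3 * y ^ 3 = 1 := by rw [← mul_pow, hxy, one_pow]
  have e4 : x ^ 4 * y ^ 4 = 1 := by rw [← mul_pow, hxy, one_pow]
  have hD : ∀ a, D ^ (a + 1) = D * (x ^ 3 - y ^ 2) ^ a := fun a => by rw [← h1, pow_succ']
  interval_cases i
  · rw [pow_one, mul_comm]
    exact hx 11 (by norm_num)
  · rw [show D ^ (1 + 1) * x ^ (3 * (5 - (1 + 1))) = x ^ 12 * D - x ^ 7 * D by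
      rw [hD]; linear_combination -D * x ^ 7 * e2]
    exact (hx 11 (by norm_num)).sub (hx 6 (by norm_num))
  · rw [show D ^ (2 + 1) * x ^ (3 * (5 - (2 + 1))) =
        x ^ 12 * D - ((2 : ℕ) : PowerSeries (ZMod 11)) * (x ^ 7 * D) + x ^ 2 * D by
      rw [hD]; push_cast; linear_combination -2 * D * x ^ 7 * e2 + D * x ^ 2 * e4]
    exact ((hx 11 (by norm_num)).sub ((hx 6 (by norm_num)).natCast_mul 2)).add
      (hx 1 (by norm_num))
  · rw [show D ^ (3 + 1) * x ^ (3 * (5 - (3 + 1))) =
        x ^ 12 * D - ((3 : ℕ) : PowerSeries (ZMod 11)) * (x ^ 7 * D) +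
          ((3 : ℕ) : PowerSeries (ZMod 11)) * (x ^ 2 * D) - y ^ (2 + 1) * D by
      rw [hD]; push_cast
      linear_combination -3 * D * x ^ 7 * e2 + 3 * D * x ^ 2 * e4 - D * y ^ 3 * e3]
    exact (((hx 11 (by norm_num)).sub ((hx 6 (by norm_num)).natCast_mul 3)).add
      ((hx 1 (by norm_num)).natCast_mul 3)).sub hy
  · rw [show 3 * (5 - (4 + 1)) = 0 from rfl, pow_zero, mul_one]
    exact noMul_eleven

end FA.Partition

end
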